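import Fermat.Agent.S30.Tate
import Fermat.Agent.S29.HEigChar
import Fermat.Agent.S29.RawPow
import Fermat.Agent.S29.HcGalois
import Fermat.Agent.S29.Smooth

/-!
# S30 (LX), assembly core (helper2)

From the torsion tower `ι n : Λ → J₀(N)[p^n]` (`Λ = parabolicHoms ℤ (Gamma0 N) ℤ`, the conclusion
of `s29_bt_tower_p`) and the finiteness of `J₀(N)[p^n]`, a character `χ` of the cusp-form Hecke
algebra with values in a complete discrete valuation ring `𝒪'` of residue characteristic `p` has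
an attached nonzero finite free `𝒪'`-module `L` with a Galois action such that

1. the action is trivial modulo `p ^ n` on the Galois group of a finite extension;
2. inertia at every prime `q ∤ N p` acts trivially;
3. every Frobenius lift at a prime `ℓ ∉ S` satisfies `σ² - χ(T_ℓ) σ + ℓ = 0`.

Ingredients: `s30_tm` (Tate module with coefficients), `s29_eigO` (eigenvector in `𝒪' ⊗ Λ`),
`s29_rw_unr` / `s29_rw_es` (the S37 detector on `p`-power torsion), `s29_hc_galois_heckeBar`,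
`s29_sm_finite_level`.
-/

set_option autoImplicit false
set_option linter.style.haveILetI false

open CongruenceSubgroup ModularCurve ModularCurve.Period ModularForm AlgebraicCurve
open scoped MatrixGroups TensorProduct

noncomputable section

namespace Fermat.Agent.S30

open Fermat.Agent.S29

local notation "Qb" => AlgebraicClosure ℚ
local notation "Γ" => (AlgebraicClosure ℚ ≃ₐ[ℚ] AlgebraicClosure ℚ)

/-- the Galois action on `J₀(N)(ℚ̄)` as a monoid homomorphism into additive endomorphisms. -/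
def s30_ac_act (N : ℕ) [NeZero N] : Γ →* AddMonoid.End (JZero N) where
  toFun σ := DistribSMul.toAddMonoidHom (JZero N) σ
  map_one' := AddMonoidHom.ext fun x => one_smul Γ x
  map_mul' σ τ := AddMonoidHom.ext fun x => mul_smul σ τ x

theorem s30_ac_act_apply (N : ℕ) [NeZero N] (σ : Γ) (x : JZero N) :
    s30_ac_act N σ x = σ • x := rfl

/-- **(LX) from the tower.** -/
theorem s30_ac_lx (p : ℕ) [Fact p.Prime] (N : ℕ) [NeZero N] (S : Finset ℕ) (hpS : p ∈ S)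
    (hNS : ∀ q : ℕ, q.Prime → q ∣ N → q ∈ S)
    (𝒪' : Type) [CommRing 𝒪'] [IsDomain 𝒪'] [IsDiscreteValuationRing 𝒪']
    [IsAdicComplete (IsLocalRing.maximalIdeal 𝒪') 𝒪'] [CharZero 𝒪']
    (hp𝒪' : (p : 𝒪') ∈ IsLocalRing.maximalIdeal 𝒪')
    (χ : CuspForm.heckeAlgebra N 2 (↑S : Set ℕ) →+* 𝒪')
    (hfin : ∀ n : ℕ, Finite {x : JZero N // p ^ n • x = 0})
    (hTW : ∃ ι : ℕ → (↥(parabolicHoms ℤ (Gamma0 N) ℤ) →+ JZero N),
      (∀ n (ψ : ↥(parabolicHoms ℤ (Gamma0 N) ℤ)), p ^ n • ι n ψ = 0) ∧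
      (∀ n (ψ : ↥(parabolicHoms ℤ (Gamma0 N) ℤ)), ι n ψ = 0 →
        ∃ ψ' : ↥(parabolicHoms ℤ (Gamma0 N) ℤ), ψ = p ^ n • ψ') ∧
      (∀ n (l : ℕ) (hl : l.Prime) (hlN : ¬ l ∣ N) (ψ : ↥(parabolicHoms ℤ (Gamma0 N) ℤ)),
        ι n (s29_cp_Tpar N l hl hlN ℤ ℤ ψ) = heckeOperatorBar N ⟨l, hl⟩ (ι n ψ)) ∧
      (∀ n (ψ : ↥(parabolicHoms ℤ (Gamma0 N) ℤ)), p • ι (n + 1) ψ = ι n ψ)) :
    ∃ (L : Type) (_ : AddCommGroup L) (_ : Module 𝒪' L) (_ : Module.Free 𝒪' L)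
      (_ : Module.Finite 𝒪' L) (_ : Nontrivial L) (ρ : Γ →* Module.End 𝒪' L),
      (∀ n : ℕ, ∃ K : IntermediateField ℚ Qb, FiniteDimensional ℚ K ∧
        ∀ σ : Γ, (∀ x ∈ K, σ x = x) → ∀ v : L, ∃ v' : L, ρ σ v - v = (p : 𝒪') ^ n • v') ∧
      (∀ q : ℕ, q.Prime → ¬ q ∣ N → q ≠ p → ∀ A : ValuationSubring Qb, A.LiesOverPrime q →
        ∀ τ ∈ A.inertiaSubgroupIn ℚ, ρ τ = 1) ∧
      (∀ (ℓ : ℕ) (hℓ : ℓ.Prime) (hℓN : ¬ ℓ ∣ N) (hℓS : ℓ ∉ (↑S : Set ℕ)),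
        ∀ A : ValuationSubring Qb, A.LiesOverPrime ℓ → ∀ σ : Γ, A.IsFrobeniusAt σ ℓ →
          ρ σ * ρ σ - χ (CuspForm.heckeAlgebra.T hℓ hℓN hℓS) • ρ σ +
            (ℓ : 𝒪') • (1 : Module.End 𝒪' L) = 0) := by
  classical
  have hp : p.Prime := Fact.out
  obtain ⟨ι, h1, h2, h3, h4⟩ := hTW
  haveI := s29_pl_fg N
  haveI := s29_pl_finite (Gamma0 N)
  haveI := s29_pl_free (Gamma0 N)
  obtain ⟨w, hw, hwa⟩ := s29_eigO N (↑S : Set ℕ) hNS χ
  have hfin1 : Finite {x : JZero N // p • x = 0} := by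
    have h := hfin 1
    simpa only [pow_one] using h
  obtain ⟨L, i1, i2, i3, i4, i5, ρ, hρ1, hρ2, hρ3⟩ :=
    s30_tm (p := p) hp𝒪' hfin1 (s30_ac_act N)
      (I := {ℓ : ℕ // ℓ.Prime ∧ ¬ ℓ ∣ N ∧ ℓ ∉ (↑S : Set ℕ)})
      (fun i => heckeOperatorBar N ⟨i.1, i.2.1⟩)
      (fun i g x => s29_hc_galois_heckeBar N ⟨i.1, i.2.1⟩ g x)
      (fun i => s29_cp_Tpar N i.1 i.2.1 i.2.2.1 ℤ ℤ) ι h1 h2 h4
      (fun n i ψ => h3 n i.1 i.2.1 i.2.2.1 ψ)
      (fun i => χ (CuspForm.heckeAlgebra.T i.2.1 i.2.2.1 i.2.2.2)) w hw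
      (fun i => hwa i.1 i.2.1 i.2.2.1 i.2.2.2)
  refine ⟨L, i1, i2, i3, i4, i5, ρ, ?_, ?_, ?_⟩
  · intro n
    have hfs : ({x : JZero N | p ^ n • x = 0} : Set (JZero N)).Finite :=
      Set.finite_coe_iff.mp (hfin n)
    obtain ⟨K, hK, -, hKfix⟩ := s29_sm_finite_level N {x : JZero N | p ^ n • x = 0} hfs
    exact ⟨K, hK, fun σ hσ v => hρ1 σ n (fun x hx => hKfix σ hσ x hx) v⟩
  · intro q hq hqN hqp A hA τ hτ
    have hqNp : ¬ q ∣ N * p := by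
      intro h
      rcases (Nat.Prime.dvd_mul hq).mp h with h | h
      · exact hqN h
      · exact hqp ((Nat.prime_dvd_prime_iff_eq hq hp).mp h)
    exact hρ2 τ (fun x hx => s29_rw_unr N p q hq hqNp A hA τ hτ x hx)
  · intro ℓ hℓ hℓN hℓS A hA σ hσ
    have hℓp : ℓ ≠ p := fun h => hℓS (by rw [h]; exact hpS)
    have hℓNp : ¬ ℓ ∣ N * p := by
      intro h
      rcases (Nat.Prime.dvd_mul hℓ).mp h with h | h
      · exact hℓN h
      · exact hℓp ((Nat.prime_dvd_prime_iff_eq hℓ hp).mp h)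
    have h5 := hρ3 σ ⟨ℓ, hℓ, hℓN, hℓS⟩ (ℓ : ℤ) (fun x hx => by
      have h6 := s29_rw_es N p ℓ hℓ hℓNp A hA σ hσ x hx
      rw [natCast_zsmul]
      exact h6)
    rw [Int.cast_natCast] at h5
    exact h5

end Fermat.Agent.S30
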