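import Mathlib

/-!
# S30, leaf (LIM)

A representation on a finite free module over a complete discrete valuation ring all of whose
elements are approximated, modulo every power of the maximal ideal, by elements satisfying a
quadratic relation `g² - t g + δ(g) = 0`, satisfies such a relation for every element.
-/

set_option autoImplicit false

namespace Fermat.Agent.S30

/-- Coordinates of elements of `I • ⊤` lie in `I`. -/
theorem s30_lim_repr_mem {R : Type*} [CommRing R] {M : Type*} [AddCommGroup M] [Module R M]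
    {ι : Type*} (b : Module.Basis ι R M) (I : Ideal R) {x : M}
    (hx : x ∈ I • (⊤ : Submodule R M)) (i : ι) : b.repr x i ∈ I := by
  refine Submodule.smul_induction_on hx ?_ ?_
  · intro a ha y _
    rw [map_smul, Finsupp.smul_apply, smul_eq_mul]
    exact I.mul_mem_right _ ha
  · intro x y hx hy
    rw [map_add, Finsupp.add_apply]
    exact I.add_mem hx hy

/-- Linear endomorphisms preserve `I • ⊤`. -/
theorem s30_lim_map_mem {R : Type*} [CommRing R] {M : Type*} [AddCommGroup M] [Module R M]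
    (f : Module.End R M) (I : Ideal R) {x : M}
    (hx : x ∈ I • (⊤ : Submodule R M)) : f x ∈ I • (⊤ : Submodule R M) := by
  refine Submodule.smul_induction_on hx ?_ ?_
  · intro a ha y _
    rw [map_smul]
    exact Submodule.smul_mem_smul ha Submodule.mem_top
  · intro x y hx hy
    rw [map_add]
    exact Submodule.add_mem _ hx hy

/-- A scalar multiplying a nontrivial free module into `I • ⊤` lies in `I`. -/
theorem s30_lim_scalar_mem {R : Type*} [CommRing R] {M : Type*} [AddCommGroup M] [Module R M]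
    [Module.Free R M] [Nontrivial M] (I : Ideal R) (a : R)
    (h : ∀ w : M, a • w ∈ I • (⊤ : Submodule R M)) : a ∈ I := by
  classical
  let b := Module.Free.chooseBasis R M
  obtain ⟨i⟩ := b.index_nonempty
  have h1 := s30_lim_repr_mem b I (h (b i)) i
  rw [map_smul, Finsupp.smul_apply, Module.Basis.repr_self, Finsupp.single_eq_same, smul_eq_mul,
    mul_one] at h1
  exact h1

theorem s30_lim {𝒪 : Type} [CommRing 𝒪] [IsDomain 𝒪] [IsDiscreteValuationRing 𝒪]
    [IsAdicComplete (IsLocalRing.maximalIdeal 𝒪) 𝒪]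
    {L : Type} [AddCommGroup L] [Module 𝒪 L] [Module.Free 𝒪 L] [Module.Finite 𝒪 L] [Nontrivial L]
    {G : Type} [Group G] (ρ : G →* Module.End 𝒪 L) (δ : G →* 𝒪ˣ)
    (hdense : ∀ (n : ℕ) (g : G), ∃ (g' : G) (t' : 𝒪),
      ρ g' * ρ g' - t' • ρ g' + ((δ g' : 𝒪ˣ) : 𝒪) • (1 : Module.End 𝒪 L) = 0 ∧
      (∀ v : L, ρ g v - ρ g' v ∈ (IsLocalRing.maximalIdeal 𝒪 ^ n) • (⊤ : Submodule 𝒪 L)) ∧
      ((δ g : 𝒪ˣ) : 𝒪) - ((δ g' : 𝒪ˣ) : 𝒪) ∈ IsLocalRing.maximalIdeal 𝒪 ^ n) (g : G) :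
    ∃ t : 𝒪, ρ g * ρ g - t • ρ g + ((δ g : 𝒪ˣ) : 𝒪) • (1 : Module.End 𝒪 L) = 0 := by
  classical
  choose g' t' h1 h2 h3 using fun n => hdense n g
  -- the approximate relation
  have hE : ∀ n v, (ρ g * ρ g - t' n • ρ g + ((δ g : 𝒪ˣ) : 𝒪) • (1 : Module.End 𝒪 L)) v ∈
      (IsLocalRing.maximalIdeal 𝒪 ^ n) • (⊤ : Submodule 𝒪 L) := by
    intro n v
    have e : (ρ g * ρ g - t' n • ρ g + ((δ g : 𝒪ˣ) : 𝒪) • (1 : Module.End 𝒪 L)) v
        = ρ g (ρ g v - ρ (g' n) v) + (ρ g (ρ (g' n) v) - ρ (g' n) (ρ (g' n) v))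
          - t' n • (ρ g v - ρ (g' n) v) + (((δ g : 𝒪ˣ) : 𝒪) - ((δ (g' n) : 𝒪ˣ) : 𝒪)) • v
          + (ρ (g' n) * ρ (g' n) - t' n • ρ (g' n)
              + ((δ (g' n) : 𝒪ˣ) : 𝒪) • (1 : Module.End 𝒪 L)) v := by
      simp only [LinearMap.add_apply, LinearMap.sub_apply, LinearMap.smul_apply,
        Module.End.mul_apply, Module.End.one_apply, map_sub, sub_smul, smul_sub]
      abel
    rw [e, h1 n, LinearMap.zero_apply, add_zero]
    refine Submodule.add_mem _ (Submodule.sub_mem _ (Submodule.add_mem _ ?_ ?_) ?_) ?_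
    · exact s30_lim_map_mem (ρ g) _ (h2 n v)
    · exact h2 n (ρ (g' n) v)
    · exact Submodule.smul_mem _ _ (h2 n v)
    · exact Submodule.smul_mem_smul (h3 n) Submodule.mem_top
  have hinv : ∀ w : L, ρ g (ρ g⁻¹ w) = w := by
    intro w
    rw [← Module.End.mul_apply, ← map_mul, mul_inv_cancel, map_one, Module.End.one_apply]
  -- Cauchy
  have hC : ∀ a b : ℕ, a ≤ b → t' a - t' b ∈ IsLocalRing.maximalIdeal 𝒪 ^ a := by
    intro a b hab
    refine s30_lim_scalar_mem (M := L) _ _ (fun w => ?_)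
    have ha := hE a (ρ g⁻¹ w)
    have hb : (ρ g * ρ g - t' b • ρ g + ((δ g : 𝒪ˣ) : 𝒪) • (1 : Module.End 𝒪 L)) (ρ g⁻¹ w) ∈
        (IsLocalRing.maximalIdeal 𝒪 ^ a) • (⊤ : Submodule 𝒪 L) :=
      Submodule.smul_mono_left (Ideal.pow_le_pow_right hab) (hE b (ρ g⁻¹ w))
    have e : (t' a - t' b) • w =
        (ρ g * ρ g - t' b • ρ g + ((δ g : 𝒪ˣ) : 𝒪) • (1 : Module.End 𝒪 L)) (ρ g⁻¹ w)
        - (ρ g * ρ g - t' a • ρ g + ((δ g : 𝒪ˣ) : 𝒪) • (1 : Module.End 𝒪 L)) (ρ g⁻¹ w) := by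
      simp only [LinearMap.add_apply, LinearMap.sub_apply, LinearMap.smul_apply,
        Module.End.mul_apply, Module.End.one_apply, hinv, sub_smul]
      abel
    rw [e]
    exact Submodule.sub_mem _ hb ha
  obtain ⟨t, ht⟩ := IsPrecomplete.prec' (I := IsLocalRing.maximalIdeal 𝒪) (M := 𝒪) t'
    (fun {a b} hab => by
      rw [SModEq.sub_mem, smul_eq_mul, Ideal.mul_top]
      exact hC a b hab)
  have ht' : ∀ n, t' n - t ∈ IsLocalRing.maximalIdeal 𝒪 ^ n := by
    intro n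
    have h := ht n
    rw [SModEq.sub_mem, smul_eq_mul, Ideal.mul_top] at h
    exact h
  refine ⟨t, LinearMap.ext fun v => ?_⟩
  rw [LinearMap.zero_apply]
  refine IsHausdorff.haus' (I := IsLocalRing.maximalIdeal 𝒪) _ (fun n => ?_)
  rw [SModEq.zero]
  have e : (ρ g * ρ g - t • ρ g + ((δ g : 𝒪ˣ) : 𝒪) • (1 : Module.End 𝒪 L)) v =
      (ρ g * ρ g - t' n • ρ g + ((δ g : 𝒪ˣ) : 𝒪) • (1 : Module.End 𝒪 L)) v
      + (t' n - t) • ρ g v := by
    simp only [LinearMap.add_apply, LinearMap.sub_apply, LinearMap.smul_apply,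
      Module.End.mul_apply, Module.End.one_apply, sub_smul]
    abel
  rw [e]
  exact Submodule.add_mem _ (hE n v) (Submodule.smul_mem_smul (ht' n) Submodule.mem_top)

end Fermat.Agent.S30
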