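import Fermat.Agent.S29.Cheb
import Fermat.Agent.S30.Lim
import Fermat.Agent.S31.Dickson

/-!
# S30, sub-leaf (ASM-Q): every Galois element is quadratic on the lattice (helper2)

`ρ : Γ → End_𝒪 L` on a finite free module over a complete discrete valuation ring and a character
`δ : Γ → 𝒪ˣ`, both of finite level modulo every power of the maximal ideal, such that every
Frobenius lift `σ` at a prime `ℓ ∉ S` satisfies `ρ σ ² - a ℓ • ρ σ + δ σ = 0`.  Then every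
`g ∈ Γ` satisfies `ρ g ² - t • ρ g + δ g = 0` for a (unique) `t ∈ 𝒪`.

Weak Chebotarev (`s29_cheb`) gives, at every finite level, a power `σ ^ j` of a Frobenius lift
congruent to `g`; powers of quadratic elements are quadratic (Dickson, `s31_dk_op`); the limit
argument is `s30_lim`.
-/

set_option autoImplicit false
set_option linter.style.haveILetI false

namespace Fermat.Agent.S30

open Fermat.Agent.S29 Fermat.Agent.S31

local notation "Qb" => AlgebraicClosure ℚ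
local notation "Γ" => (AlgebraicClosure ℚ ≃ₐ[ℚ] AlgebraicClosure ℚ)

/-- Powers of quadratic elements are quadratic (scalars in a commutative ring). -/
theorem s30_aq_pow {R : Type*} [CommRing R] {B : Type*} [Ring B] [Algebra R B] (x : B) (t d : R)
    (h : x * x - t • x + d • (1 : B) = 0) (i : ℕ) :
    x ^ i * x ^ i - s31_dk t d i • x ^ i + d ^ i • (1 : B) = 0 := by
  have hc : Commute x (algebraMap R B t) := (Algebra.commutes t x).symm
  have h' : x * x - algebraMap R B t * x + algebraMap R B d = 0 := by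
    rw [Algebra.smul_def, Algebra.smul_def, mul_one] at h
    exact h
  have h1 := s31_dk_op x (algebraMap R B t) (algebraMap R B d) hc h' i
  rw [← s31_dk_map (algebraMap R B) t d i] at h1
  rw [Algebra.smul_def, Algebra.smul_def, mul_one, h1, map_pow, ← pow_add, two_mul]
  abel

/-- The middle coefficient of a quadratic relation of an invertible endomorphism of a non-zero
free module over a domain is unique. -/
theorem s30_aq_unique {𝒪 : Type*} [CommRing 𝒪] [IsDomain 𝒪] {L : Type*} [AddCommGroup L]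
    [Module 𝒪 L] [Module.Free 𝒪 L] [Nontrivial L] (f : Module.End 𝒪 L) (hf : IsUnit f)
    (t t' d : 𝒪) (h : f * f - t • f + d • (1 : Module.End 𝒪 L) = 0)
    (h' : f * f - t' • f + d • (1 : Module.End 𝒪 L) = 0) : t = t' := by
  have e1 : f * f + d • (1 : Module.End 𝒪 L) = t • f := by
    rw [← sub_eq_zero, ← h]
    abel
  have e2 : f * f + d • (1 : Module.End 𝒪 L) = t' • f := by
    rw [← sub_eq_zero, ← h']
    abel
  have h1 : (t - t') • f = 0 := by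
    rw [sub_smul, ← e1, ← e2, sub_self]
  obtain ⟨u, rfl⟩ := hf
  have h2 : (t - t') • (1 : Module.End 𝒪 L) = 0 := by
    have h3 := congrArg (fun z => z * ((u⁻¹ : (Module.End 𝒪 L)ˣ) : Module.End 𝒪 L)) h1
    simp only [smul_mul_assoc, Units.mul_inv, zero_mul] at h3
    exact h3
  obtain ⟨v, hv⟩ := exists_ne (0 : L)
  have h4 : (t - t') • v = 0 := by
    have h5 := congrArg (fun z : Module.End 𝒪 L => z v) h2
    simpa using h5
  rcases smul_eq_zero.mp h4 with h6 | h6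
  · exact sub_eq_zero.mp h6
  · exact absurd h6 hv

/-- **(ASM-Q)** every Galois element is quadratic on the lattice. -/
theorem s30_aq_quad {𝒪 : Type} [CommRing 𝒪] [IsDomain 𝒪] [IsDiscreteValuationRing 𝒪]
    [IsAdicComplete (IsLocalRing.maximalIdeal 𝒪) 𝒪]
    {L : Type} [AddCommGroup L] [Module 𝒪 L] [Module.Free 𝒪 L] [Module.Finite 𝒪 L] [Nontrivial L]
    (ρ : Γ →* Module.End 𝒪 L) (δ : Γ →* 𝒪ˣ) (S : Finset ℕ) (a : ℕ → 𝒪)
    (hlev : ∀ n : ℕ, ∃ K : IntermediateField ℚ Qb, FiniteDimensional ℚ K ∧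
      ∀ σ : Γ, (∀ x ∈ K, σ x = x) →
        (∀ v : L, ρ σ v - v ∈ (IsLocalRing.maximalIdeal 𝒪 ^ n) • (⊤ : Submodule 𝒪 L)) ∧
        ((δ σ : 𝒪ˣ) : 𝒪) - 1 ∈ IsLocalRing.maximalIdeal 𝒪 ^ n)
    (hfrob : ∀ ℓ : ℕ, ℓ.Prime → ℓ ∉ S → ∀ A : ValuationSubring Qb, A.LiesOverPrime ℓ →
      ∀ σ : Γ, A.IsFrobeniusAt σ ℓ →
        ρ σ * ρ σ - a ℓ • ρ σ + ((δ σ : 𝒪ˣ) : 𝒪) • (1 : Module.End 𝒪 L) = 0) :
    ∀ g : Γ, ∃ t : 𝒪,
      ρ g * ρ g - t • ρ g + ((δ g : 𝒪ˣ) : 𝒪) • (1 : Module.End 𝒪 L) = 0 := by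
  intro g
  refine s30_lim ρ δ (fun n g => ?_) g
  obtain ⟨K, hK, hKσ⟩ := hlev n
  haveI := hK
  obtain ⟨ℓ, A, σ, j, hℓ, hℓS, hA, hσ, hgσ, -⟩ := s29_cheb K g S
  have hq := s30_aq_pow (ρ σ) (a ℓ) ((δ σ : 𝒪ˣ) : 𝒪) (hfrob ℓ hℓ hℓS A hA σ hσ) j
  -- `u = g⁻¹ σ^j` fixes `K`
  have hu : ∀ x ∈ K, (g⁻¹ * σ ^ j) x = x := by
    intro x hx
    show g⁻¹ ((σ ^ j) x) = x
    rw [← hgσ x hx]
    show (g⁻¹ * g) x = x
    rw [inv_mul_cancel]
    rfl
  obtain ⟨hu1, hu2⟩ := hKσ (g⁻¹ * σ ^ j) hu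
  have hgu : σ ^ j = g * (g⁻¹ * σ ^ j) := by rw [mul_inv_cancel_left]
  refine ⟨σ ^ j, s31_dk (a ℓ) ((δ σ : 𝒪ˣ) : 𝒪) j, ?_, ?_, ?_⟩
  · rw [map_pow, map_pow, Units.val_pow_eq_pow_val]
    exact hq
  · intro v
    have e : ρ g v - ρ (σ ^ j) v = ρ g (-(ρ (g⁻¹ * σ ^ j) v - v)) := by
      conv_lhs => rw [hgu, map_mul, Module.End.mul_apply]
      rw [map_neg, map_sub]
      abel
    rw [e]
    exact s30_lim_map_mem (ρ g) _ (Submodule.neg_mem _ (hu1 v))
  · have e : ((δ g : 𝒪ˣ) : 𝒪) - ((δ (σ ^ j) : 𝒪ˣ) : 𝒪) =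
        -(((δ g : 𝒪ˣ) : 𝒪) * (((δ (g⁻¹ * σ ^ j) : 𝒪ˣ) : 𝒪) - 1)) := by
      conv_lhs => rw [hgu, map_mul, Units.val_mul]
      ring
    rw [e]
    exact neg_mem (Ideal.mul_mem_left _ _ hu2)

end Fermat.Agent.S30
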