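/-
S30 leaf (CYC) (helper13): the `p`-adic cyclotomic character with values in a complete local ring.

`s30_cyc` : for a complete DVR `𝒪` of characteristic zero with `p ∈ 𝔪` there is a character
`δ : Gal(ℚ̄/ℚ) →* 𝒪ˣ` with `δ(σ) = ℓ` for every Frobenius lift `σ` at `ℓ ≠ p`, trivial on inertia at
`q ≠ p`, of finite level modulo every power of `𝔪`, and with `δ(c) = -1` for a complex
conjugation `c` (`c * c = 1`).

Construction: `δ σ` is the unique `x ∈ 𝒪` with `a ≡ x mod 𝔪 ^ n` whenever `σ t = t ^ a` for all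
`p ^ n`-th roots of unity `t` (`s30_cyc_IsVal`); existence by `𝔪`-adic completeness.
-/
import Mathlib
import Fermat.Prelude.Def_GaloisRep_Adic
import Fermat.Prelude.Def_EllipticCurve_FrobeniusTrace
import Fermat.Prelude.Def_FLTPrelim_Ramification
import Fermat.Agent.S55.IfaceTwist

set_option autoImplicit false
set_option linter.unusedSectionVars false
set_option linter.style.haveILetI false

namespace Fermat.Agent.S30

local notation "Qb" => AlgebraicClosure ℚ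
local notation "Γ" => (AlgebraicClosure ℚ ≃ₐ[ℚ] AlgebraicClosure ℚ)

open Fermat.Agent.S55

/-- A Frobenius element at `A` raises elements of `A` to the `ℓ`-th power modulo the maximal
ideal. -/
theorem s30_cyc_frob_mem {A : ValuationSubring Qb} {σ : Γ} {ℓ : ℕ} (h : A.IsFrobeniusAt σ ℓ)
    (a : Qb) (ha : a ∈ A) : σ a - a ^ ℓ ∈ A.nonunits := by
  obtain ⟨hσ, hF⟩ := h
  have h1 := hF (IsLocalRing.residue A ⟨a, ha⟩)
  rw [← IsLocalRing.ResidueField.residue_smul, ← map_pow, ← sub_eq_zero, ← map_sub,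
    IsLocalRing.residue_eq_zero_iff, ← ValuationSubring.coe_mem_nonunits_iff] at h1
  exact h1

/-- Two `N`-th roots of unity which are congruent modulo a place over `q`, `q` prime to `N`, are
equal. -/
theorem s30_cyc_root_inj (N : ℕ) (hN : N ≠ 0) (q : ℕ) (hq : Nat.Coprime N q)
    (A : ValuationSubring Qb) (hA : A.LiesOverPrime q) (u v : Qb) (hu : u ^ N = 1)
    (hv : v ^ N = 1) (huv : u - v ∈ A.nonunits) : u = v := by
  by_contra hne
  have hv0 : v ≠ 0 := by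
    rintro rfl
    rw [zero_pow hN] at hv
    exact zero_ne_one hv
  have hvinv : v⁻¹ ∈ A := pt_rootOfUnity_mem A N hN v⁻¹ (by rw [inv_pow, hv, inv_one])
  have huA : u ∈ A := pt_rootOfUnity_mem A N hN u hu
  set η : Qb := u * v⁻¹ with hη
  have hηN : η ^ N = 1 := by rw [hη, mul_pow, hu, inv_pow, hv, inv_one, mul_one]
  have hη1 : η ≠ 1 := by
    intro h
    apply hne
    rw [hη] at h
    exact (mul_inv_eq_one₀ hv0).mp h
  have hηA : η ∈ A := mul_mem huA hvinv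
  have hsub : η - 1 ∈ A.nonunits := by
    have h2 := pt_nonunits_mul_mem A _ _ huv hvinv
    have h3 : (u - v) * v⁻¹ = η - 1 := by
      rw [sub_mul, mul_inv_cancel₀ hv0]
    rw [h3] at h2
    exact h2
  have hsum : ∑ i ∈ Finset.range N, η ^ i = 0 := by
    have h1 : (η - 1) * ∑ i ∈ Finset.range N, η ^ i = 0 := by
      rw [mul_geom_sum, hηN, sub_self]
    rcases mul_eq_zero.mp h1 with h | h
    · exact absurd (sub_eq_zero.mp h) hη1
    · exact h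
  have hNm : (N : Qb) ∈ A.nonunits := by
    have h1 : (N : Qb) = - ∑ i ∈ Finset.range N, (η ^ i - 1) := by
      rw [Finset.sum_sub_distrib, hsum]
      simp
    rw [h1]
    refine neg_mem (sum_mem fun i _ => ?_)
    have h2 : η ^ i - 1 = (η - 1) * ∑ j ∈ Finset.range i, η ^ j := by
      rw [mul_geom_sum]
    rw [h2]
    exact pt_nonunits_mul_mem A _ _ hsub (sum_mem fun j _ => pow_mem hηA j)
  have hqm : (q : Qb) ∈ A.nonunits := hA
  have hcop : IsCoprime (N : ℤ) (q : ℤ) := Nat.isCoprime_iff_coprime.mpr hq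
  obtain ⟨a, b, hab⟩ := hcop
  have h1 : (1 : Qb) ∈ A.nonunits := by
    have h2 : (1 : Qb) = a • (N : Qb) + b • (q : Qb) := by
      have := congrArg (Int.cast : ℤ → Qb) hab
      push_cast at this
      rw [zsmul_eq_mul, zsmul_eq_mul]
      exact this.symm
    rw [h2]
    exact add_mem (zsmul_mem hNm a) (zsmul_mem hqm b)
  rw [ValuationSubring.mem_nonunits_iff, map_one] at h1
  exact lt_irrefl _ h1

/-- A Frobenius lift at `ℓ` raises roots of unity of order prime to `ℓ` to the `ℓ`-th power. -/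
theorem s30_cyc_frob_root (N ℓ : ℕ) (hN : N ≠ 0) (hNℓ : Nat.Coprime N ℓ)
    (A : ValuationSubring Qb) (hA : A.LiesOverPrime ℓ) (σ : Γ) (h : A.IsFrobeniusAt σ ℓ)
    (t : Qb) (ht : t ^ N = 1) : σ t = t ^ ℓ := by
  apply s30_cyc_root_inj N hN ℓ hNℓ A hA
  · rw [← map_pow, ht, map_one]
  · rw [← pow_mul, mul_comm, pow_mul, ht, one_pow]
  · exact s30_cyc_frob_mem h t (pt_rootOfUnity_mem A N hN t ht)

/-- Inertia at `q` fixes the roots of unity of order prime to `q`. -/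
theorem s30_cyc_inertia_root (N q : ℕ) (hN : N ≠ 0) (hNq : Nat.Coprime N q)
    (A : ValuationSubring Qb) (hA : A.LiesOverPrime q) (τ : Γ)
    (hτ : τ ∈ A.inertiaSubgroupIn ℚ) (t : Qb) (ht : t ^ N = 1) : τ t = t := by
  apply s30_cyc_root_inj N hN q hNq A hA
  · rw [← map_pow, ht, map_one]
  · exact ht
  · exact ((pt_mem_inertia_iff A τ).mp hτ).2 t (pt_rootOfUnity_mem A N hN t ht)

/-- Exponents acting in the same way on the `N`-th roots of unity are congruent mod `N`. -/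
theorem s30_cyc_exp_congr (N : ℕ) (hN : N ≠ 0) (a b : ℕ)
    (h : ∀ t : Qb, t ^ N = 1 → t ^ a = t ^ b) : a ≡ b [MOD N] := by
  haveI : NeZero N := ⟨hN⟩
  obtain ⟨ζ, hζ⟩ := HasEnoughRootsOfUnity.exists_primitiveRoot Qb N
  have h1 := h ζ hζ.pow_eq_one
  have hζ0 : ζ ≠ 0 := hζ.ne_zero hN
  have h2 : ζ ^ ((b : ℤ) - a) = 1 := by
    rw [zpow_sub₀ hζ0, zpow_natCast, zpow_natCast, h1, div_self (pow_ne_zero _ hζ0)]
  exact Nat.modEq_iff_dvd.2 ((hζ.zpow_eq_one_iff_dvd _).1 h2)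

/-- The action on the `p ^ n`-th roots of unity is by an exponent. -/
theorem s30_cyc_exists_exp (p : ℕ) [Fact p.Prime] (σ : Γ) (n : ℕ) :
    ∃ a : ℕ, ∀ t : Qb, t ^ (p ^ n) = 1 → σ t = t ^ a :=
  ⟨((cyclotomicCharacter Qb p (σ : Qb ≃+* Qb)).val.toZModPow n).val, fun t ht =>
    cyclotomicCharacter.spec p (σ : Qb ≃+* Qb) t ht⟩

section val

variable (p : ℕ) [Fact p.Prime] (𝒪 : Type) [CommRing 𝒪] [IsLocalRing 𝒪]

/-- `x ∈ 𝒪` is the value of the `p`-adic cyclotomic character at `σ`. -/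
def s30_cyc_IsVal (σ : Γ) (x : 𝒪) : Prop :=
  ∀ n a : ℕ, (∀ t : Qb, t ^ (p ^ n) = 1 → σ t = t ^ a) →
    (a : 𝒪) - x ∈ IsLocalRing.maximalIdeal 𝒪 ^ n

variable {p 𝒪}

theorem s30_cyc_cast_mem (hp : (p : 𝒪) ∈ IsLocalRing.maximalIdeal 𝒪) (n a b : ℕ)
    (h : a ≡ b [MOD p ^ n]) : (a : 𝒪) - (b : 𝒪) ∈ IsLocalRing.maximalIdeal 𝒪 ^ n := by
  obtain ⟨k, hk⟩ := (Nat.modEq_iff_dvd.1 h)
  have h1 : (b : 𝒪) - (a : 𝒪) = (p : 𝒪) ^ n * (k : 𝒪) := by
    have := congrArg (Int.cast : ℤ → 𝒪) hk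
    push_cast at this
    exact this
  have h2 : (a : 𝒪) - (b : 𝒪) = -((p : 𝒪) ^ n * (k : 𝒪)) := by rw [← h1]; ring
  rw [h2]
  exact neg_mem (Ideal.mul_mem_right _ _ (Ideal.pow_mem_pow hp n))

theorem s30_cyc_isVal_of_exp (hp : (p : 𝒪) ∈ IsLocalRing.maximalIdeal 𝒪) (σ : Γ) (c : ℕ)
    (hc : ∀ (n : ℕ) (t : Qb), t ^ (p ^ n) = 1 → σ t = t ^ c) :
    s30_cyc_IsVal p 𝒪 σ (c : 𝒪) := by
  intro n a ha
  have hp0 : p ^ n ≠ 0 := pow_ne_zero _ (Fact.out : p.Prime).ne_zero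
  exact s30_cyc_cast_mem hp n a c
    (s30_cyc_exp_congr (p ^ n) hp0 a c fun t ht => by rw [← ha t ht, ← hc n t ht])

theorem s30_cyc_isVal_one (hp : (p : 𝒪) ∈ IsLocalRing.maximalIdeal 𝒪) (σ : Γ)
    (h : ∀ (n : ℕ) (t : Qb), t ^ (p ^ n) = 1 → σ t = t) : s30_cyc_IsVal p 𝒪 σ (1 : 𝒪) := by
  have := s30_cyc_isVal_of_exp (𝒪 := 𝒪) hp σ 1 (fun n t ht => by rw [pow_one]; exact h n t ht)
  simpa using this

theorem s30_cyc_isVal_mul (hp : (p : 𝒪) ∈ IsLocalRing.maximalIdeal 𝒪) (σ τ : Γ) (x y : 𝒪)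
    (hx : s30_cyc_IsVal p 𝒪 σ x) (hy : s30_cyc_IsVal p 𝒪 τ y) :
    s30_cyc_IsVal p 𝒪 (σ * τ) (x * y) := by
  intro n a ha
  have hp0 : p ^ n ≠ 0 := pow_ne_zero _ (Fact.out : p.Prime).ne_zero
  obtain ⟨b, hb⟩ := s30_cyc_exists_exp p σ n
  obtain ⟨c, hc⟩ := s30_cyc_exists_exp p τ n
  have h1 : a ≡ b * c [MOD p ^ n] := by
    apply s30_cyc_exp_congr (p ^ n) hp0
    intro t ht
    rw [← ha t ht]
    show σ (τ t) = _
    rw [hc t ht, map_pow, hb t ht, ← pow_mul]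
  have h2 := s30_cyc_cast_mem (𝒪 := 𝒪) hp n a (b * c) h1
  have h3 := hx n b hb
  have h4 := hy n c hc
  have h5 : (a : 𝒪) - x * y =
      ((a : 𝒪) - ((b * c : ℕ) : 𝒪)) + ((b : 𝒪) - x) * (c : 𝒪) + x * ((c : 𝒪) - y) := by
    push_cast
    ring
  rw [h5]
  exact add_mem (add_mem h2 (Ideal.mul_mem_right _ _ h3)) (Ideal.mul_mem_left _ _ h4)

variable [IsAdicComplete (IsLocalRing.maximalIdeal 𝒪) 𝒪]

theorem s30_cyc_exists_val (hp : (p : 𝒪) ∈ IsLocalRing.maximalIdeal 𝒪) (σ : Γ) :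
    ∃ x : 𝒪, s30_cyc_IsVal p 𝒪 σ x := by
  choose a ha using fun n => s30_cyc_exists_exp p σ n
  have hp0 : ∀ n : ℕ, p ^ n ≠ 0 := fun n => pow_ne_zero _ (Fact.out : p.Prime).ne_zero
  have hcompat : ∀ {m n : ℕ}, m ≤ n → a m ≡ a n [MOD p ^ m] := by
    intro m n hmn
    apply s30_cyc_exp_congr (p ^ m) (hp0 m)
    intro t ht
    have ht' : t ^ (p ^ n) = 1 := by
      obtain ⟨d, rfl⟩ := Nat.exists_eq_add_of_le hmn
      rw [pow_add, pow_mul, ht, one_pow]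
    rw [← ha m t ht, ← ha n t ht']
  obtain ⟨L, hL⟩ := IsPrecomplete.prec' (I := IsLocalRing.maximalIdeal 𝒪)
    (fun n => (a n : 𝒪)) (fun {m n} hmn => by
      rw [SModEq.sub_mem]
      simpa using s30_cyc_cast_mem (𝒪 := 𝒪) hp m (a m) (a n) (hcompat hmn))
  refine ⟨L, fun n b hb => ?_⟩
  have h1 : (b : 𝒪) - (a n : 𝒪) ∈ IsLocalRing.maximalIdeal 𝒪 ^ n :=
    s30_cyc_cast_mem hp n b (a n)
      (s30_cyc_exp_congr (p ^ n) (hp0 n) b (a n) (fun t ht => by rw [← hb t ht, ← ha n t ht]))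
  have h2 : (a n : 𝒪) - L ∈ IsLocalRing.maximalIdeal 𝒪 ^ n := by
    have := hL n
    rw [SModEq.sub_mem] at this
    simpa using this
  have h3 : (b : 𝒪) - L = ((b : 𝒪) - a n) + ((a n : 𝒪) - L) := by ring
  rw [h3]
  exact add_mem h1 h2

theorem s30_cyc_val_unique (σ : Γ) (x y : 𝒪)
    (hx : s30_cyc_IsVal p 𝒪 σ x) (hy : s30_cyc_IsVal p 𝒪 σ y) : x = y := by
  have h : x - y = 0 := IsHausdorff.haus' (I := IsLocalRing.maximalIdeal 𝒪) (x - y) (fun n => by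
    rw [SModEq.sub_mem, sub_zero]
    obtain ⟨a, ha⟩ := s30_cyc_exists_exp p σ n
    have h1 := hx n a ha
    have h2 := hy n a ha
    have h3 : x - y = ((a : 𝒪) - y) - ((a : 𝒪) - x) := by ring
    rw [h3]
    simpa using sub_mem h2 h1)
  exact sub_eq_zero.1 h

/-- The value of the cyclotomic character. -/
noncomputable def s30_cyc_val (hp : (p : 𝒪) ∈ IsLocalRing.maximalIdeal 𝒪) (σ : Γ) : 𝒪 :=
  Classical.choose (s30_cyc_exists_val hp σ)

theorem s30_cyc_val_spec (hp : (p : 𝒪) ∈ IsLocalRing.maximalIdeal 𝒪) (σ : Γ) :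
    s30_cyc_IsVal p 𝒪 σ (s30_cyc_val hp σ) :=
  Classical.choose_spec (s30_cyc_exists_val hp σ)

theorem s30_cyc_val_eq (hp : (p : 𝒪) ∈ IsLocalRing.maximalIdeal 𝒪) (σ : Γ) (x : 𝒪)
    (hx : s30_cyc_IsVal p 𝒪 σ x) : s30_cyc_val hp σ = x :=
  s30_cyc_val_unique σ _ _ (s30_cyc_val_spec hp σ) hx

/-- The cyclotomic character as a monoid homomorphism to `𝒪`. -/
noncomputable def s30_cyc_hom (hp : (p : 𝒪) ∈ IsLocalRing.maximalIdeal 𝒪) : Γ →* 𝒪 where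
  toFun := s30_cyc_val hp
  map_one' := s30_cyc_val_eq hp 1 1 (s30_cyc_isVal_one hp 1 (fun _ _ _ => rfl))
  map_mul' σ τ := s30_cyc_val_eq hp (σ * τ) _
    (s30_cyc_isVal_mul hp σ τ _ _ (s30_cyc_val_spec hp σ) (s30_cyc_val_spec hp τ))

end val

/-- A complex conjugation in `Gal(ℚ̄/ℚ)`: an involution inverting all roots of unity. -/
theorem s30_cyc_exists_conj :
    ∃ c : Γ, c * c = 1 ∧ ∀ (N : ℕ) (t : Qb), N ≠ 0 → t ^ N = 1 → c t = t⁻¹ := by
  haveI : Algebra.IsAlgebraic ℚ Qb := AlgebraicClosure.isAlgebraic ℚ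
  haveI : IsAlgClosure ℚ Qb := ⟨inferInstance, inferInstance⟩
  haveI : Normal ℚ Qb := inferInstance
  let ι : Qb →ₐ[ℚ] ℂ := IsAlgClosed.lift
  letI : Algebra Qb ℂ := ι.toRingHom.toAlgebra
  haveI : IsScalarTower ℚ Qb ℂ := IsScalarTower.of_algebraMap_eq (fun q => (ι.commutes q).symm)
  let cj : ℂ ≃ₐ[ℚ] ℂ := Complex.conjAe.restrictScalars ℚ
  let c : Γ := cj.restrictNormal Qb
  have hc : ∀ x : Qb, ι (c x) = (starRingEnd ℂ) (ι x) := fun x =>
    AlgEquiv.restrictNormal_commutes cj Qb x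
  have hinj : Function.Injective ι := ι.toRingHom.injective
  refine ⟨c, ?_, ?_⟩
  · ext x
    apply hinj
    show ι (c (c x)) = ι x
    rw [hc, hc, Complex.conj_conj]
  · intro N t hN ht
    apply hinj
    rw [hc, map_inv₀]
    have hnorm : ‖ι t‖ = 1 := by
      have h1 : (ι t) ^ N = 1 := by rw [← map_pow, ht, map_one]
      exact Complex.norm_eq_one_of_pow_eq_one h1 hN
    exact (Complex.inv_eq_conj hnorm).symm

/-- **S30 (CYC).** The `p`-adic cyclotomic character with values in a complete discrete valuation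
ring `𝒪` with `p ∈ 𝔪`. -/
theorem s30_cyc (p : ℕ) [Fact p.Prime] (𝒪 : Type) [CommRing 𝒪] [IsDomain 𝒪]
    [IsDiscreteValuationRing 𝒪] [IsAdicComplete (IsLocalRing.maximalIdeal 𝒪) 𝒪] [CharZero 𝒪]
    (hp : (p : 𝒪) ∈ IsLocalRing.maximalIdeal 𝒪) :
    ∃ δ : Γ →* 𝒪ˣ,
      (∀ ℓ : ℕ, ℓ.Prime → ℓ ≠ p → ∀ A : ValuationSubring Qb, A.LiesOverPrime ℓ →
        ∀ σ : Γ, A.IsFrobeniusAt σ ℓ → ((δ σ : 𝒪ˣ) : 𝒪) = (ℓ : 𝒪)) ∧
      (∀ q : ℕ, q.Prime → q ≠ p → ∀ A : ValuationSubring Qb, A.LiesOverPrime q →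
        ∀ τ ∈ A.inertiaSubgroupIn ℚ, δ τ = 1) ∧
      (∀ n : ℕ, ∃ L : IntermediateField ℚ Qb, FiniteDimensional ℚ L ∧
        ∀ σ : Γ, (∀ x ∈ L, σ x = x) →
          ((δ σ : 𝒪ˣ) : 𝒪) - 1 ∈ IsLocalRing.maximalIdeal 𝒪 ^ n) ∧
      ∃ c : Γ, c * c = 1 ∧ δ c = -1 := by
  classical
  have hpp : p.Prime := Fact.out
  have hp0 : ∀ n : ℕ, p ^ n ≠ 0 := fun n => pow_ne_zero _ hpp.ne_zero
  have hcop : ∀ (q : ℕ), q.Prime → q ≠ p → ∀ n : ℕ, Nat.Coprime (p ^ n) q := by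
    intro q hq hqp n
    exact Nat.Coprime.pow_left n ((Nat.coprime_primes hpp hq).2 (Ne.symm hqp))
  have hδ : ∀ σ : Γ, (((s30_cyc_hom hp).toHomUnits σ : 𝒪ˣ) : 𝒪) = s30_cyc_val hp σ :=
    fun σ => rfl
  refine ⟨(s30_cyc_hom hp).toHomUnits, ?_, ?_, ?_, ?_⟩
  · intro ℓ hℓ hℓp A hA σ hσ
    rw [hδ]
    exact s30_cyc_val_eq hp σ _ (s30_cyc_isVal_of_exp hp σ ℓ (fun n t ht =>
      s30_cyc_frob_root (p ^ n) ℓ (hp0 n) (hcop ℓ hℓ hℓp n) A hA σ hσ t ht))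
  · intro q hq hqp A hA τ hτ
    apply Units.ext
    rw [hδ, Units.val_one]
    exact s30_cyc_val_eq hp τ _ (s30_cyc_isVal_one hp τ (fun n t ht =>
      s30_cyc_inertia_root (p ^ n) q (hp0 n) (hcop q hq hqp n) A hA τ hτ t ht))
  · intro n
    let T : Set Qb := ↑(Polynomial.nthRootsFinset (p ^ n) (1 : Qb))
    have hT : ∀ t : Qb, t ∈ T ↔ t ^ (p ^ n) = 1 := fun t => by
      show t ∈ (Polynomial.nthRootsFinset (p ^ n) (1 : Qb)) ↔ _
      rw [Polynomial.mem_nthRootsFinset (Nat.pos_of_ne_zero (hp0 n))]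
    have hfinT : Finite T := Finset.finite_toSet _
    have hfd : FiniteDimensional ℚ (IntermediateField.adjoin ℚ T) :=
      IntermediateField.finiteDimensional_adjoin fun x _ =>
        ((AlgebraicClosure.isAlgebraic ℚ).isAlgebraic x).isIntegral
    refine ⟨IntermediateField.adjoin ℚ T, hfd, fun σ hσ => ?_⟩
    rw [hδ]
    have h1 := s30_cyc_val_spec hp σ n 1 (fun t ht => by
      rw [pow_one]
      exact hσ t (IntermediateField.subset_adjoin ℚ T ((hT t).mpr ht)))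
    have h2 : s30_cyc_val hp σ - 1 = -(((1 : ℕ) : 𝒪) - s30_cyc_val hp σ) := by
      push_cast
      ring
    rw [h2]
    exact neg_mem h1
  · obtain ⟨c, hcc, hc⟩ := s30_cyc_exists_conj
    refine ⟨c, hcc, ?_⟩
    apply Units.ext
    rw [hδ, Units.val_neg, Units.val_one]
    apply s30_cyc_val_eq hp c
    intro n a ha
    have h1 : a + 1 ≡ 0 [MOD p ^ n] := by
      apply s30_cyc_exp_congr (p ^ n) (hp0 n)
      intro t ht
      have ht0 : t ≠ 0 := by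
        rintro rfl
        rw [zero_pow (hp0 n)] at ht
        exact zero_ne_one ht
      rw [pow_succ, ← ha t ht, hc (p ^ n) t (hp0 n) ht, inv_mul_cancel₀ ht0, pow_zero]
    have h2 := s30_cyc_cast_mem (𝒪 := 𝒪) hp n (a + 1) 0 h1
    have h3 : (a : 𝒪) - (-1) = ((a + 1 : ℕ) : 𝒪) - ((0 : ℕ) : 𝒪) := by
      push_cast
      ring
    rw [h3]
    exact h2

end Fermat.Agent.S30
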