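/-
S30 leaf (FIN), core (helper4): the final pure-algebra wiring of S30.

`s30_fin_core` : from a representation `ρ` of `Gal(ℚ̄/ℚ)` on a nonzero finite free `𝒪'`-module `L`
(finite level modulo `p ^ n`, trivial on inertia outside `N p`, quadratic relation at Frobenius
lifts), the cyclotomic character `δ`, a family `t` with `ρ g ^ 2 - t g • ρ g + δ g = 0` and a
rank-two lattice `L'` with characteristic polynomials `X ^ 2 - t g X + δ g` congruent to `L`,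
build the `GaloisRepAdic 𝒪'` required by the frozen statement S30 (with `𝒪'' := 𝒪'`).
-/
import Mathlib
import Fermat.Prelude.Def_CuspForm_HeckeGaloisRepDatum
import Fermat.Prelude.Def_GaloisRep_Adic
import Fermat.Prelude.Def_EllipticCurve_FrobeniusTrace
import Fermat.Prelude.Def_FLTPrelim_Ramification

set_option autoImplicit false

open Polynomial

namespace Fermat.Agent.S30

local notation "Qb" => AlgebraicClosure ℚ
local notation "Γ" => (AlgebraicClosure ℚ ≃ₐ[ℚ] AlgebraicClosure ℚ)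

/-- On a nontrivial free module over a domain, a scalar acting as zero is zero. -/
theorem s30_fin_smul_one_eq_zero {R : Type*} [CommRing R] [IsDomain R] {M : Type*}
    [AddCommGroup M] [Module R M] [Module.Free R M] [Nontrivial M] (a : R)
    (h : a • (1 : Module.End R M) = 0) : a = 0 := by
  obtain ⟨x, hx⟩ := exists_ne (0 : M)
  have h1 : a • x = 0 := by
    have := congrArg (fun f : Module.End R M => f x) h
    simpa using this
  rcases smul_eq_zero.mp h1 with h2 | h2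
  · exact h2
  · exact absurd h2 hx

/-- Uniqueness of the linear coefficient in a quadratic relation satisfied by an invertible
endomorphism of a nontrivial free module over a domain. -/
theorem s30_fin_t_unique {R : Type*} [CommRing R] [IsDomain R] {M : Type*}
    [AddCommGroup M] [Module R M] [Module.Free R M] [Nontrivial M] (f g : Module.End R M)
    (hfg : f * g = 1) (t t' d : R)
    (h : f * f - t • f + d • (1 : Module.End R M) = 0)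
    (h' : f * f - t' • f + d • (1 : Module.End R M) = 0) : t = t' := by
  have h1 : (t - t') • f = 0 := by
    rw [sub_smul]
    have : f * f - t' • f + d • (1 : Module.End R M) - (f * f - t • f + d • (1 : Module.End R M))
        = 0 := by rw [h, h', sub_zero]
    rw [← this]; abel
  have h2 : (t - t') • (1 : Module.End R M) = 0 := by
    rw [← hfg, ← smul_mul_assoc, h1, zero_mul]
  exact sub_eq_zero.mp (s30_fin_smul_one_eq_zero _ h2)

theorem s30_fin_core (p : ℕ) [Fact p.Prime] (N : ℕ) [NeZero N] (S : Finset ℕ)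
    (hpS : p ∈ S) (hNS : ∀ q : ℕ, q.Prime → q ∣ N → q ∈ S)
    (𝒪' : Type) [CommRing 𝒪'] [IsDomain 𝒪'] [IsDiscreteValuationRing 𝒪']
    [IsAdicComplete (IsLocalRing.maximalIdeal 𝒪') 𝒪'] [Finite (IsLocalRing.ResidueField 𝒪')]
    [CharZero 𝒪'] (hp𝒪' : (p : 𝒪') ∈ IsLocalRing.maximalIdeal 𝒪')
    (χ : CuspForm.heckeAlgebra N 2 (↑S : Set ℕ) →+* 𝒪')
    {L : Type} [AddCommGroup L] [Module 𝒪' L] [Module.Free 𝒪' L] [Module.Finite 𝒪' L]
    [Nontrivial L] (ρ : Γ →* Module.End 𝒪' L)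
    (h1 : ∀ n : ℕ, ∃ K : IntermediateField ℚ Qb, FiniteDimensional ℚ K ∧
      ∀ σ : Γ, (∀ x ∈ K, σ x = x) → ∀ v : L, ∃ v' : L, ρ σ v - v = (p : 𝒪') ^ n • v')
    (h2 : ∀ q : ℕ, q.Prime → ¬ q ∣ N → q ≠ p → ∀ A : ValuationSubring Qb, A.LiesOverPrime q →
      ∀ τ ∈ A.inertiaSubgroupIn ℚ, ρ τ = 1)
    (h3 : ∀ (ℓ : ℕ) (hℓ : ℓ.Prime) (hℓN : ¬ ℓ ∣ N) (hℓS : ℓ ∉ (↑S : Set ℕ)),
      ∀ A : ValuationSubring Qb, A.LiesOverPrime ℓ → ∀ σ : Γ, A.IsFrobeniusAt σ ℓ →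
        ρ σ * ρ σ - χ (CuspForm.heckeAlgebra.T hℓ hℓN hℓS) • ρ σ
          + (ℓ : 𝒪') • (1 : Module.End 𝒪' L) = 0)
    (δ : Γ →* 𝒪'ˣ)
    (hδ1 : ∀ ℓ : ℕ, ℓ.Prime → ℓ ≠ p → ∀ A : ValuationSubring Qb, A.LiesOverPrime ℓ →
      ∀ σ : Γ, A.IsFrobeniusAt σ ℓ → ((δ σ : 𝒪'ˣ) : 𝒪') = (ℓ : 𝒪'))
    (hδ2 : ∀ q : ℕ, q.Prime → q ≠ p → ∀ A : ValuationSubring Qb, A.LiesOverPrime q →
      ∀ τ ∈ A.inertiaSubgroupIn ℚ, δ τ = 1)
    (hδ3 : ∀ n : ℕ, ∃ K : IntermediateField ℚ Qb, FiniteDimensional ℚ K ∧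
      ∀ σ : Γ, (∀ x ∈ K, σ x = x) →
        ((δ σ : 𝒪'ˣ) : 𝒪') - 1 ∈ IsLocalRing.maximalIdeal 𝒪' ^ n)
    (t : Γ → 𝒪')
    (hq : ∀ g, ρ g * ρ g - t g • ρ g + ((δ g : 𝒪'ˣ) : 𝒪') • (1 : Module.End 𝒪' L) = 0)
    {L' : Type} [AddCommGroup L'] [Module 𝒪' L'] [Module.Free 𝒪' L'] [Module.Finite 𝒪' L']
    (ρ' : Γ →* Module.End 𝒪' L') (hrank : Module.finrank 𝒪' L' = 2)
    (hchar : ∀ g, (ρ' g).charpoly = X ^ 2 - C (t g) * X + C ((δ g : 𝒪'ˣ) : 𝒪'))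
    (hcong : ∀ (g : Γ) (I : Ideal 𝒪'), (∀ v : L, ρ g v - v ∈ I • (⊤ : Submodule 𝒪' L)) →
      ((δ g : 𝒪'ˣ) : 𝒪') - 1 ∈ I → ∀ y : L', ρ' g y - y ∈ I • (⊤ : Submodule 𝒪' L')) :
    ∃ (𝒪'' : Type) (_ : CommRing 𝒪'') (_ : IsDomain 𝒪'') (_ : IsDiscreteValuationRing 𝒪'')
        (_ : IsAdicComplete (IsLocalRing.maximalIdeal 𝒪'') 𝒪'')
        (_ : Finite (IsLocalRing.ResidueField 𝒪'')) (_ : CharZero 𝒪'')
        (_ : Algebra 𝒪' 𝒪'') (_ : Module.Finite 𝒪' 𝒪'') (_ : IsLocalHom (algebraMap 𝒪' 𝒪'')),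
      Function.Injective (algebraMap 𝒪' 𝒪'') ∧
      ∃ ρ : GaloisRepAdic 𝒪'',
        (∀ (ℓ : ℕ) (hℓ : ℓ.Prime) (hℓN : ¬ ℓ ∣ N) (hℓS : ℓ ∉ (↑S : Set ℕ)),
          ∀ A : ValuationSubring (AlgebraicClosure ℚ), A.LiesOverPrime ℓ →
            ∀ σ : AlgebraicClosure ℚ ≃ₐ[ℚ] AlgebraicClosure ℚ, A.IsFrobeniusAt σ ℓ →
              LinearMap.charpoly (ρ.ρ σ) =
                X ^ 2 - C (algebraMap 𝒪' 𝒪'' (χ (CuspForm.heckeAlgebra.T hℓ hℓN hℓS))) * X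
                  + C ((ℓ : 𝒪''))) ∧
        (∀ q : ℕ, q.Prime → ¬ q ∣ N → q ≠ p → ρ.IsUnramifiedAt q) := by
  have hpp : p.Prime := Fact.out
  -- the adic continuity of `ρ'`
  have hcont : GaloisActionIsAdicContinuous 𝒪' ρ' := by
    intro n
    obtain ⟨K1, hK1, hK1'⟩ := h1 n
    obtain ⟨K2, hK2, hK2'⟩ := hδ3 n
    haveI := hK1
    haveI := hK2
    refine ⟨K1 ⊔ K2, inferInstance, fun σ hσ y => ?_⟩
    refine hcong σ _ (fun v => ?_) (hK2' σ fun x hx => hσ x ((le_sup_right : K2 ≤ K1 ⊔ K2) hx)) y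
    obtain ⟨v', hv'⟩ := hK1' σ (fun x hx => hσ x ((le_sup_left : K1 ≤ K1 ⊔ K2) hx)) v
    rw [hv']
    exact Submodule.smul_mem_smul (Ideal.pow_mem_pow hp𝒪' n) Submodule.mem_top
  let R : GaloisRepAdic 𝒪' :=
    { V := L'
      finrank_eq := hrank
      ρ := ρ'
      isAdicContinuous := hcont }
  refine ⟨𝒪', inferInstance, inferInstance, inferInstance, inferInstance, inferInstance,
    inferInstance, Algebra.id 𝒪', Module.Finite.self 𝒪', ?_, ?_, R, ?_, ?_⟩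
  · show IsLocalHom (RingHom.id 𝒪')
    infer_instance
  · exact Function.injective_id
  · intro ℓ hℓ hℓN hℓS A hA σ hσ
    have hℓp : ℓ ≠ p := by
      rintro rfl
      exact hℓS (by simpa using hpS)
    have hδσ : ((δ σ : 𝒪'ˣ) : 𝒪') = (ℓ : 𝒪') := hδ1 ℓ hℓ hℓp A hA σ hσ
    have hinv : ρ σ * ρ σ⁻¹ = 1 := by rw [← map_mul, mul_inv_cancel, map_one]
    have ht : t σ = χ (CuspForm.heckeAlgebra.T hℓ hℓN hℓS) := by
      refine s30_fin_t_unique (ρ σ) (ρ σ⁻¹) hinv _ _ (ℓ : 𝒪') ?_ (h3 ℓ hℓ hℓN hℓS A hA σ hσ)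
      rw [← hδσ]; exact hq σ
    show LinearMap.charpoly (ρ' σ) = _
    rw [hchar σ, ht, hδσ]
    rfl
  · intro q hq hqN hqp P hP σ hσ
    show ρ' σ = 1
    have hρσ : ρ σ = 1 := h2 q hq hqN hqp P hP σ hσ
    have hδσ : δ σ = 1 := hδ2 q hq hqp P hP σ hσ
    refine LinearMap.ext fun y => ?_
    have := hcong σ ⊥ (fun v => by rw [hρσ]; simp) (by rw [hδσ]; simp) y
    rw [Submodule.bot_smul, Submodule.mem_bot, sub_eq_zero] at this
    rw [this]; rfl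

end Fermat.Agent.S30
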