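import Mathlib

/-!
# S30, block (QO): quadratic representations with an odd involution (helper18)

`V ≠ 0` a finite-dimensional representation of a group `G` over a field `K` of characteristic
`≠ 2` such that every `g` satisfies `g² - t(g) g + δ(g) = 0` for a character `δ`, and `c ∈ G`
with `c² = 1`, `δ(c) = -1` ("complex conjugation"). Then `V` contains a `G`-stable line, or a
`G`-stable plane on which every `g` has characteristic polynomial `X² - t(g) X + δ(g)`.
No algebraic closedness is needed: the odd involution splits the quaternion algebra.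
-/

set_option autoImplicit false

open Polynomial

namespace Fermat.Agent.S30

section Charpoly

variable {K : Type*} [Field K] {U : Type*} [AddCommGroup U] [Module K U]

/-- A non-scalar endomorphism of a plane satisfying `f² - t f + d = 0` has characteristic
polynomial `X² - t X + d`. -/
theorem s30_qo_charpoly_nonscalar [FiniteDimensional K U] (hU : Module.finrank K U = 2)
    (f : Module.End K U) (t d : K)
    (hf : f * f - t • f + d • (1 : Module.End K U) = 0)
    (hns : ∀ s : K, f ≠ s • (1 : Module.End K U)) :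
    f.charpoly = X ^ 2 - C t * X + C d := by
  have : Nontrivial U := Module.nontrivial_of_finrank_pos (R := K) (by rw [hU]; norm_num)
  have hCH := LinearMap.aeval_self_charpoly f
  have hmonic := LinearMap.charpoly_monic f
  have hdeg : f.charpoly.natDegree = 2 := by rw [LinearMap.charpoly_natDegree, hU]
  set q : K[X] := X ^ 2 - C t * X + C d with hq
  have hqdeg : q.degree = 2 := by
    rw [hq]
    compute_degree!
  have hqmonic : q.Monic := by
    rw [hq]
    monicity!
  have hqf : aeval f q = 0 := by
    rw [hq, map_add, map_sub, map_mul, map_pow, aeval_X, aeval_C, aeval_C,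
      Algebra.algebraMap_eq_smul_one, Algebra.algebraMap_eq_smul_one, smul_mul_assoc, one_mul,
      pow_two]
    exact hf
  have hdeg' : f.charpoly.degree = 2 := by
    rw [degree_eq_natDegree hmonic.ne_zero, hdeg]
    rfl
  have hlt : (f.charpoly - q).degree < 2 := by
    have h := degree_sub_lt_left (p := f.charpoly) (q := q) (by rw [hdeg', hqdeg])
      hmonic.ne_zero (by rw [hmonic.leadingCoeff, hqmonic.leadingCoeff])
    rwa [hdeg'] at h
  have hle : (f.charpoly - q).natDegree ≤ 1 := by
    by_cases h0 : f.charpoly - q = 0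
    · rw [h0]
      simp
    · have h1 : (f.charpoly - q).natDegree < 2 :=
        (natDegree_lt_iff_degree_lt h0).mpr (by exact_mod_cast hlt)
      omega
  obtain ⟨a, b, hab⟩ := exists_eq_X_add_C_of_natDegree_le_one hle
  have h0 : aeval f (f.charpoly - q) = 0 := by rw [map_sub, hCH, hqf, sub_zero]
  rw [hab, map_add, map_mul, aeval_C, aeval_C, aeval_X, Algebra.algebraMap_eq_smul_one,
    Algebra.algebraMap_eq_smul_one, smul_mul_assoc, one_mul] at h0
  have ha : a = 0 := by
    by_contra ha
    apply hns (-(b / a))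
    have h1 : a • f = a • ((-(b / a)) • (1 : Module.End K U)) := by
      rw [smul_smul, mul_neg, mul_div_cancel₀ _ ha, neg_smul]
      exact eq_neg_of_add_eq_zero_left h0
    exact smul_right_injective _ ha h1
  have hb : b = 0 := by
    rw [ha, zero_smul, zero_add] at h0
    by_contra hb
    have h1 : (1 : Module.End K U) = 0 := by
      have h2 := congrArg (fun x => b⁻¹ • x) h0
      simp only [smul_smul, inv_mul_cancel₀ hb, one_smul, smul_zero] at h2
      exact h2
    exact one_ne_zero h1
  rw [ha, hb, map_zero, zero_mul, zero_add] at hab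
  exact sub_eq_zero.mp hab

/-- The characteristic polynomial of a scalar endomorphism of a plane. -/
theorem s30_qo_charpoly_scalar [FiniteDimensional K U] (hU : Module.finrank K U = 2) (s : K) :
    (s • (1 : Module.End K U)).charpoly = X ^ 2 - C (2 * s) * X + C (s * s) := by
  classical
  let b := Module.finBasisOfFinrankEq K U hU
  rw [← LinearMap.charpoly_toMatrix (s • (1 : Module.End K U)) b, Matrix.charpoly_fin_two]
  have h1 : LinearMap.toMatrix b b (s • (1 : Module.End K U))
      = s • (1 : Matrix (Fin 2) (Fin 2) K) := by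
    rw [map_smul]
    congr 1
    exact LinearMap.toMatrix_one b
  have ht : (s • (1 : Matrix (Fin 2) (Fin 2) K)).trace = 2 * s := by
    rw [Matrix.trace_smul, Matrix.trace_one, Fintype.card_fin, smul_eq_mul, mul_comm]
    norm_num
  have hd : (s • (1 : Matrix (Fin 2) (Fin 2) K)).det = s * s := by
    rw [Matrix.det_smul, Matrix.det_one, Fintype.card_fin, mul_one, pow_two]
  rw [h1, ht, hd]

end Charpoly

section Main

variable {K : Type*} [Field K] {G : Type*} [Group G] {V : Type*} [AddCommGroup V] [Module K V]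

/-- `g + δ(g) g⁻¹ = t(g)`. -/
theorem s30_qo_inv (ρ : G →* Module.End K V) (δ : G →* Kˣ) (t : G → K)
    (hq : ∀ g, ρ g * ρ g - t g • ρ g + ((δ g : Kˣ) : K) • (1 : Module.End K V) = 0) (g : G) :
    ρ g + ((δ g : Kˣ) : K) • ρ g⁻¹ = t g • (1 : Module.End K V) := by
  have e : ρ g * ρ g⁻¹ = 1 := by rw [← map_mul, mul_inv_cancel, map_one]
  have h : (ρ g * ρ g - t g • ρ g + ((δ g : Kˣ) : K) • (1 : Module.End K V)) * ρ g⁻¹
      = ρ g - t g • (1 : Module.End K V) + ((δ g : Kˣ) : K) • ρ g⁻¹ := by
    rw [add_mul, sub_mul, mul_assoc, e, smul_mul_assoc, e, smul_mul_assoc, one_mul, mul_one]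
  rw [hq g, zero_mul] at h
  rw [← sub_eq_zero, h]
  abel

variable (ρ : G →* Module.End K V) (δ : G →* Kˣ) (t : G → K)
  (hq : ∀ g, ρ g * ρ g - t g • ρ g + ((δ g : Kˣ) : K) • (1 : Module.End K V) = 0)
  (c : G) (hc : c * c = 1) (hδc : δ c = -1)

include hq hc hδc in
/-- The four relations for `g, cg, gc, cgc`. -/
theorem s30_qo_four (g : G) :
    ρ g + ((δ g : Kˣ) : K) • ρ g⁻¹ = t g • (1 : Module.End K V) ∧
    ρ c * ρ g - (((δ g : Kˣ) : K) • ρ g⁻¹) * ρ c = t (c * g) • (1 : Module.End K V) ∧
    ρ g * ρ c - ρ c * (((δ g : Kˣ) : K) • ρ g⁻¹) = t (g * c) • (1 : Module.End K V) ∧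
    ρ c * ρ g * ρ c + ρ c * (((δ g : Kˣ) : K) • ρ g⁻¹) * ρ c
      = t (c * g * c) • (1 : Module.End K V) := by
  have hcinv : c⁻¹ = c := inv_eq_of_mul_eq_one_left hc
  have hd1 : ((δ (c * g) : Kˣ) : K) = -((δ g : Kˣ) : K) := by
    rw [map_mul, hδc]
    simp
  have hd2 : ((δ (g * c) : Kˣ) : K) = -((δ g : Kˣ) : K) := by
    rw [map_mul, hδc]
    simp
  have hd3 : ((δ (c * g * c) : Kˣ) : K) = ((δ g : Kˣ) : K) := by
    rw [map_mul, map_mul, hδc]
    simp
  refine ⟨s30_qo_inv ρ δ t hq g, ?_, ?_, ?_⟩
  · have h := s30_qo_inv ρ δ t hq (c * g)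
    rw [hd1, mul_inv_rev, hcinv, map_mul, map_mul, neg_smul, ← sub_eq_add_neg] at h
    rw [smul_mul_assoc]
    exact h
  · have h := s30_qo_inv ρ δ t hq (g * c)
    rw [hd2, mul_inv_rev, hcinv, map_mul, map_mul, neg_smul, ← sub_eq_add_neg] at h
    rw [mul_smul_comm]
    exact h
  · have h := s30_qo_inv ρ δ t hq (c * g * c)
    rw [hd3, mul_inv_rev, mul_inv_rev, hcinv, map_mul, map_mul, map_mul, map_mul] at h
    rw [mul_smul_comm, smul_mul_assoc, mul_assoc (ρ c) (ρ g⁻¹) (ρ c)]
    exact h

include hq hc hδc in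
/-- Peirce identity, `+` part: `2 (1+u) g (1+u) = (t(g) + t(cg) + t(gc) + t(cgc)) (1+u)`. -/
theorem s30_qo_peirce_plus (g : G) :
    (2 : K) • ((1 + ρ c) * ρ g * (1 + ρ c))
      = (t g + t (c * g) + t (g * c) + t (c * g * c)) • (1 + ρ c) := by
  obtain ⟨h1, h2, h3, h4⟩ := s30_qo_four ρ δ t hq c hc hδc g
  have hu : ρ c * ρ c = 1 := by rw [← map_mul, hc, map_one]
  set u := ρ c
  set x := ρ g
  set x' := ((δ g : Kˣ) : K) • ρ g⁻¹
  have hS : (1 + u) * x * (1 + u) + (1 - u) * x' * (1 - u)
      = (x + x') + (u * x - x' * u) + (x * u - u * x') + (u * x * u + u * x' * u) := by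
    noncomm_ring
  rw [h1, h2, h3, h4] at hS
  have hA : (1 + u) * ((1 + u) * x * (1 + u)) = (2 : K) • ((1 + u) * x * (1 + u)) := by
    have e : (1 + u) * (1 + u) = (2 : K) • (1 + u) := by
      have e' : (1 + u) * (1 + u) = 1 + u + u + u * u := by noncomm_ring
      rw [e', hu, two_smul]
      abel
    rw [← mul_assoc, ← mul_assoc, e, smul_mul_assoc, smul_mul_assoc]
  have hB : (1 + u) * ((1 - u) * x' * (1 - u)) = 0 := by
    have e : (1 + u) * (1 - u) = 0 := by
      have e' : (1 + u) * (1 - u) = 1 - u * u := by noncomm_ring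
      rw [e', hu, sub_self]
    rw [← mul_assoc, ← mul_assoc, e, zero_mul, zero_mul]
  have h : (1 + u) * ((1 + u) * x * (1 + u) + (1 - u) * x' * (1 - u)) = _ :=
    congrArg (fun y => (1 + u) * y) hS
  rw [mul_add, hA, hB, add_zero] at h
  rw [h, ← add_smul, ← add_smul, ← add_smul, mul_smul_comm, mul_one]

include hq hc hδc in
/-- Peirce identity, `-` part. -/
theorem s30_qo_peirce_minus (g : G) :
    (2 : K) • ((1 - ρ c) * ρ g * (1 - ρ c))
      = (t g - t (c * g) - t (g * c) + t (c * g * c)) • (1 - ρ c) := by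
  obtain ⟨h1, h2, h3, h4⟩ := s30_qo_four ρ δ t hq c hc hδc g
  have hu : ρ c * ρ c = 1 := by rw [← map_mul, hc, map_one]
  set u := ρ c
  set x := ρ g
  set x' := ((δ g : Kˣ) : K) • ρ g⁻¹
  have hS : (1 - u) * x * (1 - u) + (1 + u) * x' * (1 + u)
      = (x + x') - (u * x - x' * u) - (x * u - u * x') + (u * x * u + u * x' * u) := by
    noncomm_ring
  rw [h1, h2, h3, h4] at hS
  have hA : (1 - u) * ((1 - u) * x * (1 - u)) = (2 : K) • ((1 - u) * x * (1 - u)) := by
    have e : (1 - u) * (1 - u) = (2 : K) • (1 - u) := by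
      have e' : (1 - u) * (1 - u) = 1 - u - u + u * u := by noncomm_ring
      rw [e', hu, two_smul]
      abel
    rw [← mul_assoc, ← mul_assoc, e, smul_mul_assoc, smul_mul_assoc]
  have hB : (1 - u) * ((1 + u) * x' * (1 + u)) = 0 := by
    have e : (1 - u) * (1 + u) = 0 := by
      have e' : (1 - u) * (1 + u) = 1 - u * u := by noncomm_ring
      rw [e', hu, sub_self]
    rw [← mul_assoc, ← mul_assoc, e, zero_mul, zero_mul]
  have h : (1 - u) * ((1 - u) * x * (1 - u) + (1 + u) * x' * (1 + u)) = _ :=
    congrArg (fun y => (1 - u) * y) hS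
  rw [mul_add, hA, hB, add_zero] at h
  rw [h, ← sub_smul, ← sub_smul, ← add_smul, mul_smul_comm, mul_one]

include hq hc hδc in
/-- On the `+1`-eigenspace of `c`: `(1 + c) g v ∈ K v`. -/
theorem s30_qo_plus_apply (h2 : (2 : K) ≠ 0) (g : G) (v : V) (hv : ρ c v = v) :
    ρ g v + ρ c (ρ g v) = ((t g + t (c * g) + t (g * c) + t (c * g * c)) / 2) • v := by
  have e1 : ((1 + ρ c) * ρ g * (1 + ρ c)) v = (2 : K) • (ρ g v + ρ c (ρ g v)) := by
    simp only [Module.End.mul_apply, LinearMap.add_apply, Module.End.one_apply, hv, map_add]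
    rw [two_smul]
  have e2 : (1 + ρ c) v = (2 : K) • v := by
    rw [LinearMap.add_apply, Module.End.one_apply, hv, two_smul]
  have h := LinearMap.congr_fun (s30_qo_peirce_plus ρ δ t hq c hc hδc g) v
  rw [LinearMap.smul_apply, LinearMap.smul_apply, e1, e2] at h
  have h3 : (2 : K) • ((2 : K) • (ρ g v + ρ c (ρ g v)))
      = (2 : K) • ((2 : K) • (((t g + t (c * g) + t (g * c) + t (c * g * c)) / 2) • v)) := by
    rw [h, smul_smul, smul_smul, smul_smul]
    congr 1
    field_simp
  exact smul_right_injective V h2 (smul_right_injective V h2 h3)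

include hq hc hδc in
/-- On the `-1`-eigenspace of `c`: `(1 - c) g v ∈ K v`. -/
theorem s30_qo_minus_apply (h2 : (2 : K) ≠ 0) (g : G) (v : V) (hv : ρ c v = -v) :
    ρ g v - ρ c (ρ g v) = ((t g - t (c * g) - t (g * c) + t (c * g * c)) / 2) • v := by
  have e1 : ((1 - ρ c) * ρ g * (1 - ρ c)) v = (2 : K) • (ρ g v - ρ c (ρ g v)) := by
    simp only [Module.End.mul_apply, LinearMap.sub_apply, Module.End.one_apply, hv, map_add,
      sub_neg_eq_add]
    rw [two_smul]
  have e2 : (1 - ρ c) v = (2 : K) • v := by
    rw [LinearMap.sub_apply, Module.End.one_apply, hv, two_smul, sub_neg_eq_add]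
  have h := LinearMap.congr_fun (s30_qo_peirce_minus ρ δ t hq c hc hδc g) v
  rw [LinearMap.smul_apply, LinearMap.smul_apply, e1, e2] at h
  have h3 : (2 : K) • ((2 : K) • (ρ g v - ρ c (ρ g v)))
      = (2 : K) • ((2 : K) • (((t g - t (c * g) - t (g * c) + t (c * g * c)) / 2) • v)) := by
    rw [h, smul_smul, smul_smul, smul_smul]
    congr 1
    field_simp
  exact smul_right_injective V h2 (smul_right_injective V h2 h3)

end Main

/-- **(QO)** A quadratic representation with an odd involution contains a stable line, or a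
stable plane on which every `g` has characteristic polynomial `X² - t(g) X + δ(g)`. -/
theorem s30_qo_main {K : Type} [Field K] (h2 : (2 : K) ≠ 0) {G : Type} [Group G]
    {V : Type} [AddCommGroup V] [Module K V] [FiniteDimensional K V] [Nontrivial V]
    (ρ : G →* Module.End K V) (δ : G →* Kˣ) (t : G → K)
    (hq : ∀ g, ρ g * ρ g - t g • ρ g + ((δ g : Kˣ) : K) • (1 : Module.End K V) = 0)
    (c : G) (hc : c * c = 1) (hδc : δ c = -1) :
    ∃ (U : Submodule K V) (hU : ∀ g, ∀ x ∈ U, ρ g x ∈ U),
      Module.finrank K U = 1 ∨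
      (Module.finrank K U = 2 ∧
        ∀ g, ((ρ g).restrict (hU g)).charpoly = X ^ 2 - C (t g) * X + C ((δ g : Kˣ) : K)) := by
  classical
  have hP : ∃ n, ∃ U : Submodule K V,
      (U ≠ ⊥ ∧ ∀ g, ∀ x ∈ U, ρ g x ∈ U) ∧ Module.finrank K U = n :=
    ⟨_, ⊤, ⟨top_ne_bot, fun _ _ _ => Submodule.mem_top⟩, rfl⟩
  obtain ⟨U, ⟨hU0, hUs⟩, hUn⟩ := Nat.find_spec hP
  have hmin : ∀ U' : Submodule K V, U' ≠ ⊥ → (∀ g, ∀ x ∈ U', ρ g x ∈ U') →
      Module.finrank K U ≤ Module.finrank K U' := by
    intro U' h0 hs
    rw [hUn]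
    exact Nat.find_min' hP ⟨U', ⟨h0, hs⟩, rfl⟩
  have hsimple : ∀ U' : Submodule K V, U' ≤ U → U' ≠ ⊥ → (∀ g, ∀ x ∈ U', ρ g x ∈ U') →
      U' = U :=
    fun U' hle h0 hs => Submodule.eq_of_le_of_finrank_le hle (hmin U' h0 hs)
  refine ⟨U, hUs, ?_⟩
  by_cases h1 : Module.finrank K U = 1
  · exact Or.inl h1
  right
  obtain ⟨v0, hv0U, hv00⟩ := Submodule.exists_mem_ne_zero_of_ne_bot hU0
  have hpos : 0 < Module.finrank K U := by
    have hle : Submodule.span K {v0} ≤ U := by
      rw [Submodule.span_singleton_le_iff_mem]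
      exact hv0U
    have := Submodule.finrank_mono hle
    rw [finrank_span_singleton hv00] at this
    omega
  have hge : 2 ≤ Module.finrank K U := by omega
  have hu : ∀ x, ρ c (ρ c x) = x := fun x => by
    rw [← Module.End.mul_apply, ← map_mul, hc, map_one, Module.End.one_apply]
  -- the span of an orbit
  have horbit : ∀ v ∈ U, v ≠ 0 → Submodule.span K (Set.range fun g => ρ g v) = U := by
    intro v hv hv0
    apply hsimple
    · rw [Submodule.span_le]
      rintro _ ⟨g, rfl⟩
      exact hUs g v hv
    · intro h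
      apply hv0
      have h3 : v ∈ Submodule.span K (Set.range fun g => ρ g v) :=
        Submodule.subset_span ⟨1, by
          show ρ 1 v = v
          rw [map_one, Module.End.one_apply]⟩
      rw [h] at h3
      exact (Submodule.mem_bot K).mp h3
    · intro h x hx
      have h3 : Submodule.map (ρ h) (Submodule.span K (Set.range fun g => ρ g v))
          ≤ Submodule.span K (Set.range fun g => ρ g v) := by
        rw [Submodule.map_span, Submodule.span_le]
        rintro _ ⟨_, ⟨g, rfl⟩, rfl⟩
        exact Submodule.subset_span ⟨h * g, by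
          show ρ (h * g) v = ρ h (ρ g v)
          rw [map_mul, Module.End.mul_apply]⟩
      exact h3 (Submodule.mem_map_of_mem hx)
  have hA : ∀ v ∈ U, v ≠ 0 → ρ c v = v → ∀ w ∈ U, ρ c w = w → w ∈ Submodule.span K {v} := by
    intro v hv hv0 huv w hw huw
    have key : ∀ y ∈ Submodule.span K (Set.range fun g => ρ g v),
        y + ρ c y ∈ Submodule.span K {v} := by
      intro y hy
      induction hy using Submodule.span_induction with
      | mem y hy =>
        obtain ⟨g, rfl⟩ := hy
        show ρ g v + ρ c (ρ g v) ∈ _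
        rw [s30_qo_plus_apply ρ δ t hq c hc hδc h2 g v huv]
        exact Submodule.smul_mem _ _ (Submodule.mem_span_singleton_self v)
      | zero =>
        rw [map_zero, add_zero]
        exact Submodule.zero_mem _
      | add a b _ _ ha hb =>
        have h3 : a + b + ρ c (a + b) = (a + ρ c a) + (b + ρ c b) := by
          rw [map_add]
          abel
        rw [h3]
        exact Submodule.add_mem _ ha hb
      | smul r a _ ha =>
        rw [map_smul, ← smul_add]
        exact Submodule.smul_mem _ r ha
    have hw' := key w (by rw [horbit v hv hv0]; exact hw)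
    rw [huw] at hw'
    have h3 : w = (2 : K)⁻¹ • (w + w) := by
      rw [← two_smul K w, smul_smul, inv_mul_cancel₀ h2, one_smul]
    rw [h3]
    exact Submodule.smul_mem _ _ hw'
  have hB : ∀ v ∈ U, v ≠ 0 → ρ c v = -v → ∀ w ∈ U, ρ c w = -w → w ∈ Submodule.span K {v} := by
    intro v hv hv0 huv w hw huw
    have key : ∀ y ∈ Submodule.span K (Set.range fun g => ρ g v),
        y - ρ c y ∈ Submodule.span K {v} := by
      intro y hy
      induction hy using Submodule.span_induction with
      | mem y hy =>
        obtain ⟨g, rfl⟩ := hy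
        show ρ g v - ρ c (ρ g v) ∈ _
        rw [s30_qo_minus_apply ρ δ t hq c hc hδc h2 g v huv]
        exact Submodule.smul_mem _ _ (Submodule.mem_span_singleton_self v)
      | zero =>
        rw [map_zero, sub_zero]
        exact Submodule.zero_mem _
      | add a b _ _ ha hb =>
        have h3 : a + b - ρ c (a + b) = (a - ρ c a) + (b - ρ c b) := by
          rw [map_add]
          abel
        rw [h3]
        exact Submodule.add_mem _ ha hb
      | smul r a _ ha =>
        rw [map_smul, ← smul_sub]
        exact Submodule.smul_mem _ r ha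
    have hw' := key w (by rw [horbit v hv hv0]; exact hw)
    rw [huw, sub_neg_eq_add] at hw'
    have h3 : w = (2 : K)⁻¹ • (w + w) := by
      rw [← two_smul K w, smul_smul, inv_mul_cancel₀ h2, one_smul]
    rw [h3]
    exact Submodule.smul_mem _ _ hw'
  -- eigenvectors for both signs
  obtain ⟨vp, hvpU, hvp0, hvp⟩ : ∃ v ∈ U, v ≠ 0 ∧ ρ c v = v := by
    by_contra hcon
    push Not at hcon
    have hall : ∀ x ∈ U, ρ c x = -x := by
      intro x hx
      have hx' : x + ρ c x ∈ U := U.add_mem hx (hUs c x hx)
      by_contra hne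
      have h0 : x + ρ c x ≠ 0 := fun h => hne (eq_neg_of_add_eq_zero_right h)
      exact hcon _ hx' h0 (by rw [map_add, hu, add_comm])
    have hle : U ≤ Submodule.span K {v0} :=
      fun w hw => hB v0 hv0U hv00 (hall v0 hv0U) w hw (hall w hw)
    have h3 := Submodule.finrank_mono hle
    rw [finrank_span_singleton hv00] at h3
    omega
  obtain ⟨vm, hvmU, hvm0, hvm⟩ : ∃ v ∈ U, v ≠ 0 ∧ ρ c v = -v := by
    by_contra hcon
    push Not at hcon
    have hall : ∀ x ∈ U, ρ c x = x := by
      intro x hx
      have hx' : x - ρ c x ∈ U := U.sub_mem hx (hUs c x hx)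
      by_contra hne
      have h0 : x - ρ c x ≠ 0 := fun h => hne (sub_eq_zero.mp h).symm
      exact hcon _ hx' h0 (by rw [map_sub, hu, neg_sub])
    have hle : U ≤ Submodule.span K {v0} :=
      fun w hw => hA v0 hv0U hv00 (hall v0 hv0U) w hw (hall w hw)
    have h3 := Submodule.finrank_mono hle
    rw [finrank_span_singleton hv00] at h3
    omega
  have hU2 : Module.finrank K U = 2 := by
    have hle : U ≤ Submodule.span K {vp} ⊔ Submodule.span K {vm} := by
      intro x hx
      have hxp : x + ρ c x ∈ U := U.add_mem hx (hUs c x hx)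
      have hxm : x - ρ c x ∈ U := U.sub_mem hx (hUs c x hx)
      have h3 := hA vp hvpU hvp0 hvp (x + ρ c x) hxp (by rw [map_add, hu, add_comm])
      have h4 := hB vm hvmU hvm0 hvm (x - ρ c x) hxm (by rw [map_sub, hu, neg_sub])
      have h5 : x = (2 : K)⁻¹ • (x + ρ c x) + (2 : K)⁻¹ • (x - ρ c x) := by
        have h6 : x + ρ c x + (x - ρ c x) = (2 : K) • x := by
          rw [two_smul]
          abel
        rw [← smul_add, h6, smul_smul, inv_mul_cancel₀ h2, one_smul]
      rw [h5]
      exact Submodule.add_mem_sup (Submodule.smul_mem _ _ h3) (Submodule.smul_mem _ _ h4)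
    have h3 := Submodule.finrank_mono hle
    have h4 := Submodule.finrank_add_le_finrank_add_finrank (Submodule.span K {vp})
      (Submodule.span K {vm})
    rw [finrank_span_singleton hvp0, finrank_span_singleton hvm0] at h4
    omega
  refine ⟨hU2, fun g => ?_⟩
  have hrel : (ρ g).restrict (hUs g) * (ρ g).restrict (hUs g)
      - t g • (ρ g).restrict (hUs g) + ((δ g : Kˣ) : K) • (1 : Module.End K U) = 0 := by
    apply LinearMap.ext
    intro x
    apply Subtype.ext
    have h3 := LinearMap.congr_fun (hq g) (x : V)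
    simp only [LinearMap.add_apply, LinearMap.sub_apply, LinearMap.smul_apply,
      Module.End.mul_apply, Module.End.one_apply, LinearMap.zero_apply] at h3
    simp only [LinearMap.add_apply, LinearMap.sub_apply, LinearMap.smul_apply,
      Module.End.mul_apply, Module.End.one_apply, LinearMap.zero_apply, Submodule.coe_add,
      Submodule.coe_sub, Submodule.coe_smul, LinearMap.coe_restrict_apply, Submodule.coe_zero]
    exact h3
  by_cases hsc : ∃ s : K, (ρ g).restrict (hUs g) = s • (1 : Module.End K U)
  · obtain ⟨s, hs⟩ := hsc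
    have hsx : ∀ x ∈ U, ρ g x = s • x := by
      intro x hx
      have h3 := congrArg (fun φ : Module.End K U => ((φ ⟨x, hx⟩ : U) : V)) hs
      simpa using h3
    have hd1 : ((δ (c * g) : Kˣ) : K) = -((δ g : Kˣ) : K) := by
      rw [map_mul, hδc]
      simp
    have hcgp : ρ (c * g) vp = s • vp := by
      rw [map_mul, Module.End.mul_apply, hsx vp hvpU, map_smul, hvp]
    have hcgm : ρ (c * g) vm = -(s • vm) := by
      rw [map_mul, Module.End.mul_apply, hsx vm hvmU, map_smul, hvm, smul_neg]
    have r1 : s * s - t g * s + ((δ g : Kˣ) : K) = 0 := by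
      have h3 := LinearMap.congr_fun (hq g) vp
      simp only [LinearMap.add_apply, LinearMap.sub_apply, LinearMap.smul_apply,
        Module.End.mul_apply, Module.End.one_apply, LinearMap.zero_apply] at h3
      rw [hsx vp hvpU, map_smul, hsx vp hvpU] at h3
      have h4 : (s * s - t g * s + ((δ g : Kˣ) : K)) • vp = 0 := by
        rw [add_smul, sub_smul, mul_smul, mul_smul]
        exact h3
      exact (smul_eq_zero.mp h4).resolve_right hvp0
    have r2 : s * s - t (c * g) * s - ((δ g : Kˣ) : K) = 0 := by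
      have h3 := LinearMap.congr_fun (hq (c * g)) vp
      simp only [LinearMap.add_apply, LinearMap.sub_apply, LinearMap.smul_apply,
        Module.End.mul_apply, Module.End.one_apply, LinearMap.zero_apply] at h3
      rw [hcgp, map_smul, hcgp, hd1] at h3
      have h4 : (s * s - t (c * g) * s - ((δ g : Kˣ) : K)) • vp = 0 := by
        rw [sub_smul, sub_smul, mul_smul, mul_smul]
        rw [neg_smul, ← sub_eq_add_neg] at h3
        exact h3
      exact (smul_eq_zero.mp h4).resolve_right hvp0
    have r3 : s * s + t (c * g) * s - ((δ g : Kˣ) : K) = 0 := by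
      have h3 := LinearMap.congr_fun (hq (c * g)) vm
      simp only [LinearMap.add_apply, LinearMap.sub_apply, LinearMap.smul_apply,
        Module.End.mul_apply, Module.End.one_apply, LinearMap.zero_apply] at h3
      rw [hcgm, map_neg, map_smul, hcgm, hd1] at h3
      have h4 : (s * s + t (c * g) * s - ((δ g : Kˣ) : K)) • vm = 0 := by
        rw [sub_smul, add_smul, mul_smul, mul_smul]
        rw [smul_neg, neg_neg, smul_neg, sub_neg_eq_add, neg_smul, ← sub_eq_add_neg] at h3
        exact h3
      exact (smul_eq_zero.mp h4).resolve_right hvm0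
    have hs0 : s ≠ 0 := by
      rintro rfl
      rw [mul_zero, mul_zero, sub_zero, zero_add] at r1
      exact (δ g).ne_zero r1
    have ht0 : t (c * g) = 0 := by
      have h3 : (2 : K) * (t (c * g) * s) = 0 := by linear_combination r3 - r2
      rcases mul_eq_zero.mp h3 with h | h
      · exact absurd h h2
      · exact (mul_eq_zero.mp h).resolve_right hs0
    have hδs : ((δ g : Kˣ) : K) = s * s := by
      rw [ht0] at r2
      linear_combination -r2
    have hts : t g = 2 * s := by
      have h3 : s * (2 * s - t g) = 0 := by linear_combination r1 - hδs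
      have h4 := (mul_eq_zero.mp h3).resolve_left hs0
      linear_combination -h4
    rw [hs, s30_qo_charpoly_scalar hU2 s, hts, hδs]
  · push Not at hsc
    exact s30_qo_charpoly_nonscalar hU2 _ (t g) _ hrel hsc

end Fermat.Agent.S30
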