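import Mathlib
import Fermat.Agent.S30.QuadOdd

/-!
# S30 leaf (LAT): from a quadratic lattice representation to a rank two lattice

`𝒪` a discrete valuation ring of characteristic zero, `L` a finite free `𝒪`-module with an
action of a group `G` all of whose elements satisfy `g² - t(g) g + δ(g) = 0` for a character
`δ` with `δ(c) = -1` for an involution `c`.  Then there is a free `𝒪`-module of rank two with
an action of `G` with characteristic polynomials `X² - t(g) X + δ(g)`.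
-/

set_option autoImplicit false
set_option linter.unusedSectionVars false

open TensorProduct Polynomial

noncomputable section

namespace Fermat.Agent.S30

section Generic

variable {𝒪 : Type} [CommRing 𝒪] [IsDomain 𝒪] {K : Type} [Field K] [Algebra 𝒪 K]
  [IsFractionRing 𝒪 K] {L : Type} [AddCommGroup L] [Module 𝒪 L]

/-- clearing denominators in `K ⊗ L`. -/
theorem s30_lat_exists_den (v : K ⊗[𝒪] L) :
    ∃ d : 𝒪, d ≠ 0 ∧ ∃ x : L, (algebraMap 𝒪 K d) • v = (1 : K) ⊗ₜ[𝒪] x := by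
  induction v using TensorProduct.induction_on with
  | zero => exact ⟨1, one_ne_zero, 0, by simp⟩
  | tmul a x =>
      obtain ⟨n, d, hd, rfl⟩ := IsFractionRing.div_surjective (A := 𝒪) a
      have hd0 : algebraMap 𝒪 K d ≠ 0 :=
        (map_ne_zero_iff _ (IsFractionRing.injective 𝒪 K)).mpr (nonZeroDivisors.ne_zero hd)
      refine ⟨d, nonZeroDivisors.ne_zero hd, n • x, ?_⟩
      rw [TensorProduct.smul_tmul', smul_eq_mul, mul_div_cancel₀ _ hd0,
        ← TensorProduct.smul_tmul, Algebra.smul_def, mul_one]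
  | add v w hv hw =>
      obtain ⟨d₁, hd₁, x₁, h₁⟩ := hv
      obtain ⟨d₂, hd₂, x₂, h₂⟩ := hw
      refine ⟨d₁ * d₂, mul_ne_zero hd₁ hd₂, d₂ • x₁ + d₁ • x₂, ?_⟩
      rw [smul_add, TensorProduct.tmul_add, TensorProduct.tmul_smul, TensorProduct.tmul_smul,
        ← h₁, ← h₂, map_mul, algebraMap_smul, algebraMap_smul, mul_smul, mul_smul,
        algebraMap_smul, algebraMap_smul, algebraMap_smul, algebraMap_smul, smul_comm d₁ d₂ v]

/-- the saturated lattice `L ∩ U` attached to a `K`-subspace `U` of `K ⊗ L`. -/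
def s30_lat_M (U : Submodule K (K ⊗[𝒪] L)) : Submodule 𝒪 L :=
  (U.restrictScalars 𝒪).comap (TensorProduct.mk 𝒪 K L 1)

omit [IsDomain 𝒪] [IsFractionRing 𝒪 K] in
theorem s30_lat_mem_M (U : Submodule K (K ⊗[𝒪] L)) (x : L) :
    x ∈ s30_lat_M U ↔ (1 : K) ⊗ₜ[𝒪] x ∈ U := Iff.rfl

theorem s30_lat_M_sat (U : Submodule K (K ⊗[𝒪] L)) (a : 𝒪) (ha : a ≠ 0) (v : L)
    (h : a • v ∈ s30_lat_M U) : v ∈ s30_lat_M U := by
  rw [s30_lat_mem_M] at h ⊢
  have ha0 : algebraMap 𝒪 K a ≠ 0 := (map_ne_zero_iff _ (IsFractionRing.injective 𝒪 K)).mpr ha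
  have h1 : (1 : K) ⊗ₜ[𝒪] (a • v) = algebraMap 𝒪 K a • ((1 : K) ⊗ₜ[𝒪] v) := by
    rw [TensorProduct.tmul_smul, algebraMap_smul]
  rw [h1] at h
  have h2 := U.smul_mem (algebraMap 𝒪 K a)⁻¹ h
  rwa [smul_smul, inv_mul_cancel₀ ha0, one_smul] at h2

/-- the comparison map `K ⊗ (L ∩ U) → U`. -/
def s30_lat_Phi (U : Submodule K (K ⊗[𝒪] L)) : K ⊗[𝒪] (s30_lat_M U) →ₗ[K] U :=
  LinearMap.codRestrict U ((s30_lat_M U).subtype.baseChange K) (by
    intro v
    induction v using TensorProduct.induction_on with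
    | zero => simp
    | tmul a x =>
        rw [LinearMap.baseChange_tmul]
        have h1 : a ⊗ₜ[𝒪] ((s30_lat_M U).subtype x) = a • ((1 : K) ⊗ₜ[𝒪] (x : L)) := by
          rw [TensorProduct.smul_tmul', smul_eq_mul, mul_one]
          rfl
        rw [h1]
        exact U.smul_mem a x.2
    | add v w hv hw =>
        rw [map_add]
        exact U.add_mem hv hw)

omit [IsDomain 𝒪] [IsFractionRing 𝒪 K] in
theorem s30_lat_Phi_tmul (U : Submodule K (K ⊗[𝒪] L)) (a : K) (x : s30_lat_M U) :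
    (s30_lat_Phi U (a ⊗ₜ[𝒪] x) : K ⊗[𝒪] L) = a ⊗ₜ[𝒪] (x : L) := rfl

theorem s30_lat_Phi_bijective (U : Submodule K (K ⊗[𝒪] L)) :
    Function.Bijective (s30_lat_Phi U) := by
  have : Module.Flat 𝒪 K := IsLocalization.flat K (nonZeroDivisors 𝒪)
  constructor
  · intro v w hvw
    have h1 := Module.Flat.lTensor_preserves_injective_linearMap (M := K) (s30_lat_M U).subtype
      Subtype.val_injective
    apply h1
    have h2 := congrArg (fun u : U => (u : K ⊗[𝒪] L)) hvw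
    exact h2
  · rintro ⟨u, hu⟩
    obtain ⟨d, hd, x, hx⟩ := s30_lat_exists_den (K := K) u
    have hd0 : algebraMap 𝒪 K d ≠ 0 := (map_ne_zero_iff _ (IsFractionRing.injective 𝒪 K)).mpr hd
    have hxM : x ∈ s30_lat_M U := by
      rw [s30_lat_mem_M, ← hx]
      exact U.smul_mem _ hu
    refine ⟨(algebraMap 𝒪 K d)⁻¹ ⊗ₜ[𝒪] (⟨x, hxM⟩ : s30_lat_M U), ?_⟩
    apply Subtype.ext
    rw [s30_lat_Phi_tmul]
    show (algebraMap 𝒪 K d)⁻¹ ⊗ₜ[𝒪] x = u
    have h1 : (algebraMap 𝒪 K d)⁻¹ ⊗ₜ[𝒪] x = (algebraMap 𝒪 K d)⁻¹ • ((1 : K) ⊗ₜ[𝒪] x) := by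
      rw [TensorProduct.smul_tmul', smul_eq_mul, mul_one]
    rw [h1, ← hx, smul_smul, inv_mul_cancel₀ hd0, one_smul]

/-- the comparison isomorphism `K ⊗ (L ∩ U) ≃ U`. -/
def s30_lat_equiv (U : Submodule K (K ⊗[𝒪] L)) : K ⊗[𝒪] (s30_lat_M U) ≃ₗ[K] U :=
  LinearEquiv.ofBijective (s30_lat_Phi U) (s30_lat_Phi_bijective U)

theorem s30_lat_equiv_comm (U : Submodule K (K ⊗[𝒪] L)) (f : Module.End 𝒪 L)
    (hfM : ∀ x ∈ s30_lat_M U, f x ∈ s30_lat_M U) (hfU : ∀ v ∈ U, f.baseChange K v ∈ U)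
    (v : K ⊗[𝒪] (s30_lat_M U)) :
    s30_lat_equiv U ((f.restrict hfM).baseChange K v) =
      (f.baseChange K).restrict hfU (s30_lat_equiv U v) := by
  induction v using TensorProduct.induction_on with
  | zero => simp
  | tmul a x =>
      apply Subtype.ext
      rfl
  | add v w hv hw => rw [map_add, map_add, map_add, map_add, hv, hw]

end Generic

section Main

variable {𝒪 : Type} [CommRing 𝒪] [IsDomain 𝒪] [IsDiscreteValuationRing 𝒪]
  {G : Type} [Group G]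
  {L : Type} [AddCommGroup L] [Module 𝒪 L] [Module.Free 𝒪 L] [Module.Finite 𝒪 L]

/-- membership in `I • ⊤` for a principal ideal. -/
theorem s30_lat_mem_smul_top {N : Type} [AddCommGroup N] [Module 𝒪 N] (a : 𝒪) (y : N) :
    y ∈ Ideal.span {a} • (⊤ : Submodule 𝒪 N) ↔ ∃ v : N, a • v = y := by
  rw [Submodule.ideal_span_singleton_smul, Submodule.mem_smul_pointwise_iff_exists]
  simp

/-- the congruence clause passes to a saturated stable sublattice. -/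
theorem s30_lat_congr_sub (M : Submodule 𝒪 L)
    (hsat : ∀ (a : 𝒪), a ≠ 0 → ∀ v : L, a • v ∈ M → v ∈ M)
    (f : Module.End 𝒪 L) (hfM : ∀ x ∈ M, f x ∈ M) (I : Ideal 𝒪)
    (hf : ∀ v : L, f v - v ∈ I • (⊤ : Submodule 𝒪 L)) (y : M) :
    (f.restrict hfM) y - y ∈ I • (⊤ : Submodule 𝒪 M) := by
  obtain ⟨a, rfl⟩ := (IsPrincipalIdealRing.principal I).principal
  change (f.restrict hfM) y - y ∈ Ideal.span {a} • (⊤ : Submodule 𝒪 M)
  have h1 := hf (y : L)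
  change f (y : L) - (y : L) ∈ Ideal.span {a} • (⊤ : Submodule 𝒪 L) at h1
  rw [s30_lat_mem_smul_top] at h1 ⊢
  obtain ⟨v, hv⟩ := h1
  by_cases ha : a = 0
  · refine ⟨0, ?_⟩
    apply Subtype.ext
    rw [ha, zero_smul] at hv
    simp only [smul_zero, ZeroMemClass.coe_zero, AddSubgroupClass.coe_sub,
      LinearMap.coe_restrict_apply]
    exact hv
  · have hvM : v ∈ M := hsat a ha v (by
      rw [hv]
      exact M.sub_mem (hfM _ y.2) y.2)
    refine ⟨⟨v, hvM⟩, ?_⟩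
    apply Subtype.ext
    simp only [SetLike.val_smul, AddSubgroupClass.coe_sub, LinearMap.coe_restrict_apply]
    exact hv

/-- the diagonal representation `ψ ⊕ δ ψ⁻¹` on `𝒪²`. -/
def s30_lat_diag (ψ δ : G →* 𝒪ˣ) : G →* Module.End 𝒪 (Fin 2 → 𝒪) where
  toFun g := Matrix.toLin' (Matrix.diagonal ![((ψ g : 𝒪ˣ) : 𝒪), ((δ g * (ψ g)⁻¹ : 𝒪ˣ) : 𝒪)])
  map_one' := by
    have h : (![((ψ 1 : 𝒪ˣ) : 𝒪), ((δ 1 * (ψ 1)⁻¹ : 𝒪ˣ) : 𝒪)] : Fin 2 → 𝒪) = fun _ => 1 := by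
      funext i
      fin_cases i <;> simp
    rw [h, Matrix.diagonal_one, Matrix.toLin'_one]
    rfl
  map_mul' g h := by
    rw [Module.End.mul_eq_comp, ← Matrix.toLin'_mul, Matrix.diagonal_mul_diagonal]
    congr 2
    funext i
    fin_cases i
    · simp
    · simp only [map_mul, mul_inv_rev, Units.val_mul, Fin.mk_one, Matrix.cons_val_one,
        Matrix.cons_val_zero]
      ring

theorem s30_lat_diag_charpoly (ψ δ : G →* 𝒪ˣ) (g : G) :
    (s30_lat_diag ψ δ g).charpoly =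
      X ^ 2 - C (((ψ g : 𝒪ˣ) : 𝒪) + ((δ g * (ψ g)⁻¹ : 𝒪ˣ) : 𝒪)) * X + C ((δ g : 𝒪ˣ) : 𝒪) := by
  have h0 : s30_lat_diag ψ δ g =
      Matrix.toLin' (Matrix.diagonal ![((ψ g : 𝒪ˣ) : 𝒪), ((δ g * (ψ g)⁻¹ : 𝒪ˣ) : 𝒪)]) := rfl
  rw [h0, Matrix.charpoly_toLin', Matrix.charpoly_fin_two, Matrix.trace_diagonal,
    Matrix.det_diagonal, Fin.sum_univ_two, Fin.prod_univ_two]
  have h : ((ψ g : 𝒪ˣ) : 𝒪) * ((δ g * (ψ g)⁻¹ : 𝒪ˣ) : 𝒪) = ((δ g : 𝒪ˣ) : 𝒪) := by
    rw [← Units.val_mul, mul_comm (δ g), ← mul_assoc, mul_inv_cancel, one_mul]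
  simp only [Matrix.cons_val_zero, Matrix.cons_val_one]
  rw [h]

theorem s30_lat_diag_congr (ψ δ : G →* 𝒪ˣ) (g : G) (I : Ideal 𝒪)
    (h1 : ((ψ g : 𝒪ˣ) : 𝒪) - 1 ∈ I) (h2 : ((δ g : 𝒪ˣ) : 𝒪) - 1 ∈ I) (y : Fin 2 → 𝒪) :
    s30_lat_diag ψ δ g y - y ∈ I • (⊤ : Submodule 𝒪 (Fin 2 → 𝒪)) := by
  have h3 : ((δ g * (ψ g)⁻¹ : 𝒪ˣ) : 𝒪) - 1 ∈ I := by
    have e : ((δ g * (ψ g)⁻¹ : 𝒪ˣ) : 𝒪) - 1 =
        (((ψ g)⁻¹ : 𝒪ˣ) : 𝒪) * ((((δ g : 𝒪ˣ) : 𝒪) - 1) - (((ψ g : 𝒪ˣ) : 𝒪) - 1)) := by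
      have e1 : (((ψ g)⁻¹ : 𝒪ˣ) : 𝒪) * ((ψ g : 𝒪ˣ) : 𝒪) = 1 := Units.inv_mul _
      rw [Units.val_mul]
      linear_combination e1
    rw [e]
    exact I.mul_mem_left _ (I.sub_mem h2 h1)
  have h4 : s30_lat_diag ψ δ g y - y =
      (((ψ g : 𝒪ˣ) : 𝒪) - 1) • Pi.single 0 (y 0) +
        (((δ g * (ψ g)⁻¹ : 𝒪ˣ) : 𝒪) - 1) • Pi.single 1 (y 1) := by
    funext i
    fin_cases i <;>
      simp [s30_lat_diag, Matrix.toLin'_apply, sub_mul]
  rw [h4]
  exact Submodule.add_mem _ (Submodule.smul_mem_smul h1 Submodule.mem_top)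
    (Submodule.smul_mem_smul h3 Submodule.mem_top)

end Main

/-- (LAT) with an arbitrary fraction field `K` of `𝒪`. -/
theorem s30_lat_aux {𝒪 : Type} [CommRing 𝒪] [IsDomain 𝒪] [IsDiscreteValuationRing 𝒪] [CharZero 𝒪]
    (K : Type) [Field K] [Algebra 𝒪 K] [IsFractionRing 𝒪 K]
    {G : Type} [Group G]
    {L : Type} [AddCommGroup L] [Module 𝒪 L] [Module.Free 𝒪 L] [Module.Finite 𝒪 L] [Nontrivial L]
    (ρ : G →* Module.End 𝒪 L) (δ : G →* 𝒪ˣ) (t : G → 𝒪)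
    (hq : ∀ g, ρ g * ρ g - t g • ρ g + ((δ g : 𝒪ˣ) : 𝒪) • (1 : Module.End 𝒪 L) = 0)
    (c : G) (hc : c * c = 1) (hδc : δ c = -1) :
    ∃ (L' : Type) (_ : AddCommGroup L') (_ : Module 𝒪 L') (_ : Module.Free 𝒪 L')
      (_ : Module.Finite 𝒪 L') (ρ' : G →* Module.End 𝒪 L'),
      Module.finrank 𝒪 L' = 2 ∧
      (∀ g, (ρ' g).charpoly = X ^ 2 - C (t g) * X + C ((δ g : 𝒪ˣ) : 𝒪)) ∧
      (∀ (g : G) (I : Ideal 𝒪), (∀ v : L, ρ g v - v ∈ I • (⊤ : Submodule 𝒪 L)) →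
        ((δ g : 𝒪ˣ) : 𝒪) - 1 ∈ I → ∀ y : L', ρ' g y - y ∈ I • (⊤ : Submodule 𝒪 L')) := by
  classical
  have hinj : Function.Injective (algebraMap 𝒪 K) :=
    IsFractionRing.injective 𝒪 K
  have hcz : CharZero K := charZero_of_injective_algebraMap hinj
  have h2 : (2 : K) ≠ 0 := two_ne_zero
  let ρK : G →* Module.End K (K ⊗[𝒪] L) :=
    ((Module.End.baseChangeHom 𝒪 K L :
      Module.End 𝒪 L →ₐ[𝒪] Module.End K (K ⊗[𝒪] L)) :
      Module.End 𝒪 L →* Module.End K (K ⊗[𝒪] L)).comp ρ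
  have hρK : ∀ g, ρK g = (ρ g).baseChange K := fun g => rfl
  let δK : G →* Kˣ :=
    (Units.map (algebraMap 𝒪 K : 𝒪 →* K)).comp δ
  have hδK : ∀ g, ((δK g : Kˣ) : K) =
      algebraMap 𝒪 K ((δ g : 𝒪ˣ) : 𝒪) := fun g => rfl
  have hqK : ∀ g, ρK g * ρK g - algebraMap 𝒪 K (t g) • ρK g +
      ((δK g : Kˣ) : K) •
        (1 : Module.End K (K ⊗[𝒪] L)) = 0 := by
    intro g
    have h := congrArg (Module.End.baseChangeHom 𝒪 K L) (hq g)
    rw [map_add, map_sub, map_mul, map_smul, map_smul, map_one, map_zero] at h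
    rw [hδK, algebraMap_smul, algebraMap_smul]
    exact h
  have hfr : 0 < Module.finrank K (K ⊗[𝒪] L) := by
    rw [Module.finrank_baseChange]
    exact Module.finrank_pos
  have hnt : Nontrivial (K ⊗[𝒪] L) := Module.nontrivial_of_finrank_pos hfr
  have hδKc : δK c = -1 := by
    apply Units.ext
    rw [hδK, hδc]
    simp
  obtain ⟨U, hU, hcase⟩ := s30_qo_main h2 ρK δK (fun g => algebraMap 𝒪 K (t g))
    hqK c hc hδKc
  have hUfree : Module.Free K U := Module.Free.of_divisionRing K U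
  -- the saturated lattice
  set M : Submodule 𝒪 L := s30_lat_M U with hMdef
  have hM : ∀ g, ∀ x ∈ M, ρ g x ∈ M := by
    intro g x hx
    rw [hMdef, s30_lat_mem_M] at hx ⊢
    have h := hU g _ hx
    rwa [hρK, LinearMap.baseChange_tmul] at h
  have hsat : ∀ a : 𝒪, a ≠ 0 → ∀ v : L, a • v ∈ M → v ∈ M :=
    fun a ha v h => s30_lat_M_sat U a ha v h
  let ρM : G →* Module.End 𝒪 M :=
    { toFun := fun g => (ρ g).restrict (hM g)
      map_one' := by
        ext x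
        simp
      map_mul' := fun g h => by
        ext x
        simp }
  have hρM : ∀ g (x : M), ((ρM g x : M) : L) = ρ g (x : L) := fun g x => rfl
  have hrank : Module.finrank 𝒪 M = Module.finrank K U := by
    rw [← (s30_lat_equiv U).finrank_eq, Module.finrank_baseChange]
  have hchar : ∀ g, ((ρK g).restrict (hU g)).charpoly =
      ((ρM g).charpoly).map (algebraMap 𝒪 K) := by
    intro g
    have h1 : (ρK g).restrict (hU g) =
        (s30_lat_equiv U).conj ((ρM g).baseChange K) := by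
      apply LinearMap.ext
      intro u
      rw [LinearEquiv.conj_apply]
      simp only [LinearMap.coe_comp, LinearEquiv.coe_coe, Function.comp_apply]
      have h3 := s30_lat_equiv_comm U (ρ g) (hM g) (hU g) ((s30_lat_equiv U).symm u)
      rw [LinearEquiv.apply_symm_apply] at h3
      exact h3.symm
    rw [h1, LinearEquiv.charpoly_conj, LinearMap.charpoly_baseChange]
  rcases hcase with h1 | ⟨h2', hcp⟩
  · -- rank one: a character
    have hrM : Module.finrank 𝒪 M = 1 := by rw [hrank, h1]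
    let b : Module.Basis (Fin 1) 𝒪 M := Module.finBasisOfFinrankEq 𝒪 M hrM
    have hb : ∀ y : M, y = (b.repr y 0) • b 0 := by
      intro y
      conv_lhs => rw [← b.sum_repr y]
      simp
    have hb0 : b.repr (b 0) 0 = 1 := by simp
    have hrep : ∀ (r : 𝒪), b.repr (r • b 0) 0 = r := by
      intro r
      simp
    let ψ₀ : G →* 𝒪 :=
      { toFun := fun g => b.repr (ρM g (b 0)) 0
        map_one' := by
          rw [map_one]
          exact hb0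
        map_mul' := fun g h => by
          have e1 : ρM h (b 0) = (b.repr (ρM h (b 0)) 0) • b 0 := hb _
          have e2 : ρM g (b 0) = (b.repr (ρM g (b 0)) 0) • b 0 := hb _
          have e3 : ρM (g * h) (b 0) =
              (b.repr (ρM g (b 0)) 0 * b.repr (ρM h (b 0)) 0) • b 0 := by
            rw [map_mul, Module.End.mul_apply]
            conv_lhs => rw [e1, map_smul, e2, smul_smul, mul_comm]
          rw [e3, hrep] }
    have hψ₀ : ∀ g, ρM g (b 0) = ψ₀ g • b 0 := fun g => hb _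
    let ψ : G →* 𝒪ˣ := ψ₀.toHomUnits
    have hψ : ∀ g, ((ψ g : 𝒪ˣ) : 𝒪) = ψ₀ g := fun g => MonoidHom.coe_toHomUnits ψ₀ g
    have hquad : ∀ g, ψ₀ g * ψ₀ g - t g * ψ₀ g + ((δ g : 𝒪ˣ) : 𝒪) = 0 := by
      intro g
      have h := congrArg (fun f : Module.End 𝒪 L => f ((b 0 : M) : L)) (hq g)
      simp only [LinearMap.add_apply, LinearMap.sub_apply, Module.End.mul_apply,
        LinearMap.smul_apply, Module.End.one_apply, LinearMap.zero_apply] at h
      have hx : ρ g ((b 0 : M) : L) = ψ₀ g • ((b 0 : M) : L) := by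
        rw [← hρM, hψ₀ g]
        rfl
      rw [hx, map_smul, hx] at h
      have h' : ((ψ₀ g * ψ₀ g - t g * ψ₀ g + ((δ g : 𝒪ˣ) : 𝒪)) • b 0 : M) = 0 := by
        apply Subtype.ext
        rw [SetLike.val_smul, ZeroMemClass.coe_zero, ← h]
        simp only [add_smul, sub_smul, mul_smul]
      have h'' := congrArg (fun y => b.repr y 0) h'
      simp only [hrep, map_zero, Finsupp.zero_apply] at h''
      exact h''
    have ht : ∀ g, t g = ((ψ g : 𝒪ˣ) : 𝒪) + ((δ g * (ψ g)⁻¹ : 𝒪ˣ) : 𝒪) := by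
      intro g
      have h := hquad g
      rw [← hψ g] at h
      have e1 : (((ψ g)⁻¹ : 𝒪ˣ) : 𝒪) * ((ψ g : 𝒪ˣ) : 𝒪) = 1 := Units.inv_mul _
      have e2 : t g * ((ψ g : 𝒪ˣ) : 𝒪) =
          (((ψ g : 𝒪ˣ) : 𝒪) + ((δ g * (ψ g)⁻¹ : 𝒪ˣ) : 𝒪)) * ((ψ g : 𝒪ˣ) : 𝒪) := by
        rw [Units.val_mul]
        linear_combination (-1 : 𝒪) * h - ((δ g : 𝒪ˣ) : 𝒪) * e1
      exact mul_right_cancel₀ (Units.ne_zero (ψ g)) e2
    refine ⟨Fin 2 → 𝒪, inferInstance, inferInstance, inferInstance, inferInstance,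
      s30_lat_diag ψ δ, ?_, ?_, ?_⟩
    · simp
    · intro g
      rw [s30_lat_diag_charpoly, ← ht g]
    · intro g I hv hδ y
      refine s30_lat_diag_congr ψ δ g I ?_ hδ y
      have hc' := s30_lat_congr_sub M hsat (ρ g) (hM g) I hv (b 0)
      obtain ⟨a, rfl⟩ := (IsPrincipalIdealRing.principal I).principal
      change (ρ g).restrict (hM g) (b 0) - b 0 ∈ Ideal.span {a} • (⊤ : Submodule 𝒪 M) at hc'
      rw [s30_lat_mem_smul_top] at hc'
      obtain ⟨v, hv'⟩ := hc'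
      have h3 : (ρ g).restrict (hM g) (b 0) = ψ₀ g • b 0 := hψ₀ g
      have h4 : a • v = (ψ₀ g - 1) • b 0 := by
        rw [hv', h3, sub_smul, one_smul]
      have h5 := congrArg (fun y => b.repr y 0) h4
      simp only [map_smul, Finsupp.smul_apply, smul_eq_mul] at h5
      rw [hb0, mul_one] at h5
      rw [hψ g, ← h5]
      exact Ideal.mul_mem_right _ _ (Ideal.subset_span rfl)
  · -- rank two: the saturated lattice itself
    refine ⟨M, inferInstance, inferInstance, inferInstance, inferInstance, ρM, ?_, ?_, ?_⟩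
    · rw [hrank, h2']
    · intro g
      apply Polynomial.map_injective (algebraMap 𝒪 K) hinj
      rw [← hchar g, hcp g, hδK]
      simp
    · intro g I hv hδ y
      exact s30_lat_congr_sub M hsat (ρ g) (hM g) I hv y

/-- **(LAT)**. -/
theorem s30_lat {𝒪 : Type} [CommRing 𝒪] [IsDomain 𝒪] [IsDiscreteValuationRing 𝒪] [CharZero 𝒪]
    {G : Type} [Group G]
    {L : Type} [AddCommGroup L] [Module 𝒪 L] [Module.Free 𝒪 L] [Module.Finite 𝒪 L] [Nontrivial L]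
    (ρ : G →* Module.End 𝒪 L) (δ : G →* 𝒪ˣ) (t : G → 𝒪)
    (hq : ∀ g, ρ g * ρ g - t g • ρ g + ((δ g : 𝒪ˣ) : 𝒪) • (1 : Module.End 𝒪 L) = 0)
    (c : G) (hc : c * c = 1) (hδc : δ c = -1) :
    ∃ (L' : Type) (_ : AddCommGroup L') (_ : Module 𝒪 L') (_ : Module.Free 𝒪 L')
      (_ : Module.Finite 𝒪 L') (ρ' : G →* Module.End 𝒪 L'),
      Module.finrank 𝒪 L' = 2 ∧
      (∀ g, (ρ' g).charpoly = X ^ 2 - C (t g) * X + C ((δ g : 𝒪ˣ) : 𝒪)) ∧
      (∀ (g : G) (I : Ideal 𝒪), (∀ v : L, ρ g v - v ∈ I • (⊤ : Submodule 𝒪 L)) →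
        ((δ g : 𝒪ˣ) : 𝒪) - 1 ∈ I → ∀ y : L', ρ' g y - y ∈ I • (⊤ : Submodule 𝒪 L')) :=
  s30_lat_aux (FractionRing 𝒪) ρ δ t hq c hc hδc

end Fermat.Agent.S30
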