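/-
S30 leaf (FIN) (helper4): the final pure-algebra wiring of S30.

`s30_fin` : the conclusion of the frozen statement S30 (with `𝒪'' := 𝒪'`) from the existence of a
nonzero finite free `𝒪'`-module `L` with a representation `ρ` of `Gal(ℚ̄/ℚ)` of finite level modulo
every `p ^ n`, trivial on inertia outside `N p` and satisfying the quadratic relation
`ρ σ ^ 2 - χ(T_ℓ) ρ σ + ℓ = 0` at Frobenius lifts `σ` at the primes `ℓ ∉ S`.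

Inputs: `s30_cyc` (cyclotomic character), `s30_aq_quad` (every element is quadratic),
`s30_lat` (rank-two lattice), `s30_fin_core`.
-/
import Fermat.Agent.S30.FinCore
import Fermat.Agent.S30.Cyc
import Fermat.Agent.S30.AsmQuad
import Fermat.Agent.S30.Lat

set_option autoImplicit false

open Polynomial

namespace Fermat.Agent.S30

local notation "Qb" => AlgebraicClosure ℚ
local notation "Γ" => (AlgebraicClosure ℚ ≃ₐ[ℚ] AlgebraicClosure ℚ)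

theorem s30_fin (p : ℕ) [Fact p.Prime] (N : ℕ) [NeZero N] (S : Finset ℕ)
    (hpS : p ∈ S) (hNS : ∀ q : ℕ, q.Prime → q ∣ N → q ∈ S)
    (𝒪' : Type) [CommRing 𝒪'] [IsDomain 𝒪'] [IsDiscreteValuationRing 𝒪']
    [IsAdicComplete (IsLocalRing.maximalIdeal 𝒪') 𝒪'] [Finite (IsLocalRing.ResidueField 𝒪')]
    [CharZero 𝒪'] (hp𝒪' : (p : 𝒪') ∈ IsLocalRing.maximalIdeal 𝒪')
    (χ : CuspForm.heckeAlgebra N 2 (↑S : Set ℕ) →+* 𝒪')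
    (hL : ∃ (L : Type) (_ : AddCommGroup L) (_ : Module 𝒪' L) (_ : Module.Free 𝒪' L)
      (_ : Module.Finite 𝒪' L) (_ : Nontrivial L) (ρ : Γ →* Module.End 𝒪' L),
      (∀ n : ℕ, ∃ K : IntermediateField ℚ Qb, FiniteDimensional ℚ K ∧
        ∀ σ : Γ, (∀ x ∈ K, σ x = x) → ∀ v : L, ∃ v' : L, ρ σ v - v = (p : 𝒪') ^ n • v') ∧
      (∀ q : ℕ, q.Prime → ¬ q ∣ N → q ≠ p → ∀ A : ValuationSubring Qb, A.LiesOverPrime q →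
        ∀ τ ∈ A.inertiaSubgroupIn ℚ, ρ τ = 1) ∧
      (∀ (ℓ : ℕ) (hℓ : ℓ.Prime) (hℓN : ¬ ℓ ∣ N) (hℓS : ℓ ∉ (↑S : Set ℕ)),
        ∀ A : ValuationSubring Qb, A.LiesOverPrime ℓ → ∀ σ : Γ, A.IsFrobeniusAt σ ℓ →
          ρ σ * ρ σ - χ (CuspForm.heckeAlgebra.T hℓ hℓN hℓS) • ρ σ
            + (ℓ : 𝒪') • (1 : Module.End 𝒪' L) = 0)) :
    ∃ (𝒪'' : Type) (_ : CommRing 𝒪'') (_ : IsDomain 𝒪'') (_ : IsDiscreteValuationRing 𝒪'')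
        (_ : IsAdicComplete (IsLocalRing.maximalIdeal 𝒪'') 𝒪'')
        (_ : Finite (IsLocalRing.ResidueField 𝒪'')) (_ : CharZero 𝒪'')
        (_ : Algebra 𝒪' 𝒪'') (_ : Module.Finite 𝒪' 𝒪'') (_ : IsLocalHom (algebraMap 𝒪' 𝒪'')),
      Function.Injective (algebraMap 𝒪' 𝒪'') ∧
      ∃ ρ : GaloisRepAdic 𝒪'',
        (∀ (ℓ : ℕ) (hℓ : ℓ.Prime) (hℓN : ¬ ℓ ∣ N) (hℓS : ℓ ∉ (↑S : Set ℕ)),
          ∀ A : ValuationSubring (AlgebraicClosure ℚ), A.LiesOverPrime ℓ →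
            ∀ σ : AlgebraicClosure ℚ ≃ₐ[ℚ] AlgebraicClosure ℚ, A.IsFrobeniusAt σ ℓ →
              LinearMap.charpoly (ρ.ρ σ) =
                X ^ 2 - C (algebraMap 𝒪' 𝒪'' (χ (CuspForm.heckeAlgebra.T hℓ hℓN hℓS))) * X
                  + C ((ℓ : 𝒪''))) ∧
        (∀ q : ℕ, q.Prime → ¬ q ∣ N → q ≠ p → ρ.IsUnramifiedAt q) := by
  classical
  obtain ⟨L, _, _, _, _, _, ρ, h1, h2, h3⟩ := hL
  obtain ⟨δ, hδ1, hδ2, hδ3, c, hc, hδc⟩ := s30_cyc p 𝒪' hp𝒪'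
  -- every element satisfies a quadratic relation
  have hlev : ∀ n : ℕ, ∃ K : IntermediateField ℚ Qb, FiniteDimensional ℚ K ∧
      ∀ σ : Γ, (∀ x ∈ K, σ x = x) →
        (∀ v : L, ρ σ v - v ∈ (IsLocalRing.maximalIdeal 𝒪' ^ n) • (⊤ : Submodule 𝒪' L)) ∧
        ((δ σ : 𝒪'ˣ) : 𝒪') - 1 ∈ IsLocalRing.maximalIdeal 𝒪' ^ n := by
    intro n
    obtain ⟨K1, hK1, hK1'⟩ := h1 n
    obtain ⟨K2, hK2, hK2'⟩ := hδ3 n
    have := hK1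
    have := hK2
    refine ⟨K1 ⊔ K2, inferInstance, fun σ hσ => ⟨fun v => ?_, ?_⟩⟩
    · obtain ⟨v', hv'⟩ := hK1' σ (fun x hx => hσ x ((le_sup_left : K1 ≤ K1 ⊔ K2) hx)) v
      rw [hv']
      exact Submodule.smul_mem_smul (Ideal.pow_mem_pow hp𝒪' n) Submodule.mem_top
    · exact hK2' σ fun x hx => hσ x ((le_sup_right : K2 ≤ K1 ⊔ K2) hx)
  let a : ℕ → 𝒪' := fun ℓ =>
    if h : ℓ.Prime ∧ ¬ ℓ ∣ N ∧ ℓ ∉ (↑S : Set ℕ) then χ (CuspForm.heckeAlgebra.T h.1 h.2.1 h.2.2)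
    else 0
  have hfrob : ∀ ℓ : ℕ, ℓ.Prime → ℓ ∉ S → ∀ A : ValuationSubring Qb, A.LiesOverPrime ℓ →
      ∀ σ : Γ, A.IsFrobeniusAt σ ℓ →
        ρ σ * ρ σ - a ℓ • ρ σ + ((δ σ : 𝒪'ˣ) : 𝒪') • (1 : Module.End 𝒪' L) = 0 := by
    intro ℓ hℓ hℓS A hA σ hσ
    have hℓN : ¬ ℓ ∣ N := fun h => hℓS (hNS ℓ hℓ h)
    have hℓS' : ℓ ∉ (↑S : Set ℕ) := by simpa using hℓS
    have hℓp : ℓ ≠ p := by
      rintro rfl
      exact hℓS hpS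
    have ha : a ℓ = χ (CuspForm.heckeAlgebra.T hℓ hℓN hℓS') := by
      simp only [a]
      rw [dif_pos ⟨hℓ, hℓN, hℓS'⟩]
    rw [ha, hδ1 ℓ hℓ hℓp A hA σ hσ]
    exact h3 ℓ hℓ hℓN hℓS' A hA σ hσ
  have hquad := s30_aq_quad ρ δ S a hlev hfrob
  choose t ht using hquad
  obtain ⟨L', _, _, _, _, ρ', hrank, hchar, hcong⟩ := s30_lat ρ δ t ht c hc hδc
  exact s30_fin_core p N S hpS hNS 𝒪' hp𝒪' χ ρ h1 h2 h3 δ hδ1 hδ2 hδ3 t ht ρ' hrank hchar hcong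

end Fermat.Agent.S30
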