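/-
S30 leaf (DENS) (helper13): from the quadratic relation at Frobenius lifts to the quadratic
relation at every element of `Gal(ℚ̄/ℚ)`, for a continuous representation on a finite free module
over a complete discrete valuation ring.

`s30_dens` : `ρ` and `δ` continuous (finite level modulo every `𝔪 ^ n`), and
`ρ(σ)² - a_ℓ ρ(σ) + δ(σ) = 0` for every Frobenius lift `σ` at every `ℓ ∉ S`.  Then every `g` satisfies
`ρ(g)² - t ρ(g) + δ(g) = 0` for some `t`.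

Proof: weak Chebotarev (`s29_cheb`) approximates `g` modulo every finite level by a power `σ ^ j`
of a Frobenius lift; powers of quadratic elements are quadratic (`s30_dens_pow_quad`); conclude
with the limit lemma `s30_lim`.
-/
import Fermat.Agent.S29.Cheb
import Fermat.Agent.S30.Lim

set_option autoImplicit false

namespace Fermat.Agent.S30

local notation "Qb" => AlgebraicClosure ℚ
local notation "Γ" => (AlgebraicClosure ℚ ≃ₐ[ℚ] AlgebraicClosure ℚ)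

open Fermat.Agent.S29

/-- Powers of an element satisfying a quadratic relation `φ² - tφ + d = 0` (with central
coefficients) satisfy quadratic relations `(φʲ)² - c φʲ + dʲ = 0`. -/
theorem s30_dens_pow_quad {R B : Type*} [CommRing R] [Ring B] [Algebra R B] (φ : B) (t d : R)
    (h : φ * φ - t • φ + d • (1 : B) = 0) (j : ℕ) :
    ∃ c : R, φ ^ j * φ ^ j - c • φ ^ j + (d ^ j) • (1 : B) = 0 := by
  set ψ : B := algebraMap R B t - φ with hψ
  have hsum : φ + ψ = algebraMap R B t := by rw [hψ]; abel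
  have hcomm : Commute φ ψ := by
    show φ * ψ = ψ * φ
    rw [hψ, mul_sub, sub_mul, Algebra.commutes]
  have hprod : φ * ψ = algebraMap R B d := by
    rw [hψ, mul_sub, ← Algebra.commutes, ← Algebra.smul_def, Algebra.algebraMap_eq_smul_one,
      ← sub_eq_zero]
    have h1 : t • φ - φ * φ - d • (1 : B) = -(φ * φ - t • φ + d • (1 : B)) := by abel
    rw [h1, h, neg_zero]
  have key : ∀ i : ℕ, ∃ c : R, algebraMap R B c = φ ^ i + ψ ^ i := by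
    intro i
    induction i using Nat.twoStepInduction with
    | zero =>
      refine ⟨2, ?_⟩
      rw [pow_zero, pow_zero, map_ofNat]
      norm_num
    | one => exact ⟨t, by rw [pow_one, pow_one, hsum]⟩
    | more i ih1 ih2 =>
      obtain ⟨c1, hc1⟩ := ih1
      obtain ⟨c2, hc2⟩ := ih2
      refine ⟨t * c2 - d * c1, ?_⟩
      rw [map_sub, map_mul, map_mul, hc1, hc2, ← hsum, ← hprod]
      have h1 : ψ * φ ^ (i + 1) = φ * ψ * φ ^ i := by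
        rw [pow_succ', ← mul_assoc, hcomm.eq]
      have h2 : φ * ψ ^ (i + 1) = φ * ψ * ψ ^ i := by
        rw [pow_succ', mul_assoc]
      rw [add_mul, mul_add, mul_add, mul_add (φ * ψ), h1, h2, pow_succ' φ (i + 1),
        pow_succ' ψ (i + 1)]
      abel
  obtain ⟨c, hc⟩ := key j
  refine ⟨c, ?_⟩
  have h3 : (d ^ j) • (1 : B) = φ ^ j * ψ ^ j := by
    rw [← Algebra.algebraMap_eq_smul_one, map_pow, ← hprod, hcomm.mul_pow]
  have h4 : ψ ^ j * φ ^ j = φ ^ j * ψ ^ j := ((hcomm.pow_pow j j).eq).symm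
  rw [Algebra.smul_def, hc, h3, add_mul, h4]
  abel

/-- **S30 (DENS).** -/
theorem s30_dens {𝒪 : Type} [CommRing 𝒪] [IsDomain 𝒪] [IsDiscreteValuationRing 𝒪]
    [IsAdicComplete (IsLocalRing.maximalIdeal 𝒪) 𝒪]
    {L : Type} [AddCommGroup L] [Module 𝒪 L] [Module.Free 𝒪 L] [Module.Finite 𝒪 L] [Nontrivial L]
    (ρ : Γ →* Module.End 𝒪 L) (δ : Γ →* 𝒪ˣ) (S : Finset ℕ) (a : ℕ → 𝒪)
    (hcont : ∀ n : ℕ, ∃ K : IntermediateField ℚ Qb, FiniteDimensional ℚ K ∧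
      ∀ σ : Γ, (∀ x ∈ K, σ x = x) →
        ∀ v : L, ρ σ v - v ∈ (IsLocalRing.maximalIdeal 𝒪 ^ n) • (⊤ : Submodule 𝒪 L))
    (hδcont : ∀ n : ℕ, ∃ K : IntermediateField ℚ Qb, FiniteDimensional ℚ K ∧
      ∀ σ : Γ, (∀ x ∈ K, σ x = x) →
        ((δ σ : 𝒪ˣ) : 𝒪) - 1 ∈ IsLocalRing.maximalIdeal 𝒪 ^ n)
    (hfrob : ∀ ℓ : ℕ, ℓ.Prime → ℓ ∉ S → ∀ A : ValuationSubring Qb, A.LiesOverPrime ℓ →
      ∀ σ : Γ, A.IsFrobeniusAt σ ℓ →
        ρ σ * ρ σ - a ℓ • ρ σ + ((δ σ : 𝒪ˣ) : 𝒪) • (1 : Module.End 𝒪 L) = 0) (g : Γ) :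
    ∃ t : 𝒪, ρ g * ρ g - t • ρ g + ((δ g : 𝒪ˣ) : 𝒪) • (1 : Module.End 𝒪 L) = 0 := by
  refine s30_lim ρ δ (fun n g => ?_) g
  obtain ⟨K1, hK1, h1⟩ := hcont n
  obtain ⟨K2, hK2, h2⟩ := hδcont n
  have := hK1
  have := hK2
  obtain ⟨ℓ, A, σ, j, hℓ, hℓS, hA, hσ, hg, -⟩ := s29_cheb (K1 ⊔ K2) g S
  have hfix : ∀ x ∈ K1 ⊔ K2, ((σ ^ j)⁻¹ * g) x = x := by
    intro x hx
    show (σ ^ j)⁻¹ (g x) = x
    rw [hg x hx]
    show ((σ ^ j)⁻¹ * σ ^ j) x = x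
    rw [inv_mul_cancel]
    rfl
  have hgdec : g = σ ^ j * ((σ ^ j)⁻¹ * g) := by group
  obtain ⟨c, hc⟩ := s30_dens_pow_quad (ρ σ) (a ℓ) ((δ σ : 𝒪ˣ) : 𝒪) (hfrob ℓ hℓ hℓS A hA σ hσ) j
  refine ⟨σ ^ j, c, ?_, ?_, ?_⟩
  · rw [map_pow, map_pow, Units.val_pow_eq_pow_val]
    exact hc
  · intro v
    have h3 : ρ g v - ρ (σ ^ j) v = ρ (σ ^ j) (ρ ((σ ^ j)⁻¹ * g) v - v) := by
      conv_lhs => rw [hgdec]
      rw [map_mul, Module.End.mul_apply, map_sub]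
    rw [h3]
    exact s30_lim_map_mem _ _ (h1 _ (fun x hx => hfix x (le_sup_left (a := K1) hx)) v)
  · have h3 : ((δ g : 𝒪ˣ) : 𝒪) - ((δ (σ ^ j) : 𝒪ˣ) : 𝒪) =
        ((δ (σ ^ j) : 𝒪ˣ) : 𝒪) * (((δ ((σ ^ j)⁻¹ * g) : 𝒪ˣ) : 𝒪) - 1) := by
      conv_lhs => rw [hgdec]
      rw [map_mul, Units.val_mul]
      ring
    rw [h3]
    exact Ideal.mul_mem_left _ _ (h2 _ (fun x hx => hfix x (le_sup_right (b := K2) hx)))

end Fermat.Agent.S30
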