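import Fermat.Agent.S30.TateMod

/-!
# S30 (TM): the Tate module with `𝒪`-coefficients

`s30_tm` : from an abstract torsion tower `ι n : Λ → J[p^n]` (lattice `Λ`, abelian group `J`
with finite `p`-torsion, commuting actions of a group `G` and of operators `T i`) and an
eigenvector `w ∈ 𝒪 ⊗ Λ`, a nonzero finite free `𝒪`-module `L` with an action of `G`, on which the
relations satisfied on `J[p^∞]` hold with `T i` replaced by its eigenvalue `a i`.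
-/

set_option autoImplicit false

open TensorProduct

noncomputable section

namespace Fermat.Agent.S30

section seq

variable {p : ℕ} {𝒪 : Type} [CommRing 𝒪] {J : Type} [AddCommGroup J] {I : Type}
  {T : I → J →+ J} {a : I → 𝒪}

/-- Componentwise action of an additive endomorphism of `J` on sequences in `𝒪 ⊗ J`. -/
def s30_tm_seq (𝒪 : Type) [CommRing 𝒪] {J : Type} [AddCommGroup J] (f : J →+ J) :
    (ℕ → 𝒪 ⊗[ℤ] J) →ₗ[𝒪] (ℕ → 𝒪 ⊗[ℤ] J) where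
  toFun x n := s30_tm_bc 𝒪 f (x n)
  map_add' x y := by funext n; simp
  map_smul' c x := by funext n; simp

theorem s30_tm_seq_apply (f : J →+ J) (x : ℕ → 𝒪 ⊗[ℤ] J) (n : ℕ) :
    s30_tm_seq 𝒪 f x n = s30_tm_bc 𝒪 f (x n) := rfl

theorem s30_tm_seq_mem (f : J →+ J) (hf : ∀ i x, T i (f x) = f (T i x))
    {x : ℕ → 𝒪 ⊗[ℤ] J} (hx : x ∈ s30_tm_L p 𝒪 T a) :
    s30_tm_seq 𝒪 f x ∈ s30_tm_L p 𝒪 T a := by
  refine ⟨?_, fun n => ?_, fun i n => ?_⟩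
  · rw [s30_tm_seq_apply, hx.1, map_zero]
  · rw [s30_tm_seq_apply, s30_tm_seq_apply, ← map_smul, hx.2.1]
  · rw [s30_tm_seq_apply, ← s30_tm_bc_comp,
      (show (T i).comp f = f.comp (T i) from AddMonoidHom.ext (hf i)), s30_tm_bc_comp, hx.2.2,
      map_smul]

end seq

section main

variable {p : ℕ} {𝒪 : Type} [CommRing 𝒪] [IsDomain 𝒪]
  [IsDiscreteValuationRing 𝒪] {J : Type} [AddCommGroup J] {I : Type}
  (T : I → J →+ J) (a : I → 𝒪)

/-- The eigen-part of the Tate module is torsion-free. -/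
theorem s30_tm_L_torsionFree (hp : (p : 𝒪) ∈ IsLocalRing.maximalIdeal 𝒪) :
    Module.IsTorsionFree 𝒪 (s30_tm_L p 𝒪 T a) := by
  rw [Module.isTorsionFree_iff_smul_eq_zero]
  intro c x hcx
  by_cases hc : c = 0
  · exact Or.inl hc
  · right
    obtain ⟨j, r, hj⟩ := s30_tm_dvd_pow hp hc
    apply Subtype.ext
    funext n
    have h1 : c • (x : ℕ → 𝒪 ⊗[ℤ] J) (n + j) = 0 := congrFun (congrArg Subtype.val hcx) (n + j)
    have h2 := s30_tm_L_pow x.2 n j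
    rw [hj, mul_comm, mul_smul, h1, smul_zero] at h2
    exact h2.symm

variable [IsAdicComplete (IsLocalRing.maximalIdeal 𝒪) 𝒪] [CharZero 𝒪]

/-- The eigen-part of the Tate module is finitely generated. -/
theorem s30_tm_L_finite [Fact p.Prime] (hp : (p : 𝒪) ∈ IsLocalRing.maximalIdeal 𝒪)
    (hfin : Finite {x : J // p • x = 0}) : Module.Finite 𝒪 (s30_tm_L p 𝒪 T a) := by
  obtain ⟨π, hπ⟩ := IsDiscreteValuationRing.exists_irreducible 𝒪
  have hmax : IsLocalRing.maximalIdeal 𝒪 = Ideal.span {π} := hπ.maximalIdeal_eq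
  have : IsPrecomplete (Ideal.span {π}) 𝒪 :=
    hmax ▸ (inferInstance : IsPrecomplete (IsLocalRing.maximalIdeal 𝒪) 𝒪)
  have hp0 : (p : 𝒪) ≠ 0 := Nat.cast_ne_zero.mpr (Fact.out : p.Prime).ne_zero
  obtain ⟨s, hs⟩ := s30_tm_unif_dvd hπ hp
  obtain ⟨e, r, he⟩ := s30_tm_dvd_unif_pow hπ hp0
  obtain ⟨P, hPfg, hP⟩ := s30_tm_tors_fg (𝒪 := 𝒪) p hfin
  have hPn : IsNoetherian 𝒪 P := isNoetherian_of_fg_of_noetherian P hPfg
  refine s30_tm_finite_of_complete π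
    ((LinearMap.proj 1).comp (s30_tm_L p 𝒪 T a).subtype :
      s30_tm_L p 𝒪 T a →ₗ[𝒪] 𝒪 ⊗[ℤ] J) ?_ ?_ ?_
  · refine isNoetherian_submodule.mp hPn _ ?_
    rintro _ ⟨x, rfl⟩
    apply hP
    have h1 := x.2.2.1 0
    show (p : 𝒪) • (x : ℕ → 𝒪 ⊗[ℤ] J) 1 = 0
    rw [zero_add] at h1
    rw [h1, x.2.1]
  · intro x hx
    obtain ⟨y, hy, hxy⟩ := s30_tm_L_shift x.2 1 hx
    refine ⟨⟨s • y, Submodule.smul_mem _ _ hy⟩, Subtype.ext ?_⟩
    show (x : ℕ → 𝒪 ⊗[ℤ] J) = π • s • y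
    rw [hxy, pow_one, hs, mul_smul]
  · intro x hx
    apply Subtype.ext
    funext k
    obtain ⟨y, hy⟩ := hx (e * k)
    have h1 : (x : ℕ → 𝒪 ⊗[ℤ] J) k = π ^ (e * k) • (y : ℕ → 𝒪 ⊗[ℤ] J) k := by
      rw [hy]
      rfl
    rw [h1, pow_mul, he, mul_pow, mul_comm, mul_smul, s30_tm_L_tors y.2, smul_zero]
    rfl

omit [IsAdicComplete (IsLocalRing.maximalIdeal 𝒪) 𝒪] in
/-- The eigen-part of the Tate module is nonzero: it contains the image of the eigenvector `w`. -/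
theorem s30_tm_L_nontrivial (hp : (p : 𝒪) ∈ IsLocalRing.maximalIdeal 𝒪)
    {Λ : Type} [AddCommGroup Λ] [Module.Free ℤ Λ] [Module.Finite ℤ Λ] (Tc : I → Module.End ℤ Λ)
    (ι : ℕ → Λ →+ J) (h1 : ∀ n ψ, p ^ n • ι n ψ = 0)
    (h2 : ∀ n ψ, ι n ψ = 0 → ∃ ψ', ψ = p ^ n • ψ')
    (h3 : ∀ n ψ, p • ι (n + 1) ψ = ι n ψ) (h4 : ∀ n i ψ, ι n (Tc i ψ) = T i (ι n ψ))
    (w : 𝒪 ⊗[ℤ] Λ) (hw : w ≠ 0) (hwa : ∀ i, (Tc i).baseChange 𝒪 w = a i • w) :
    Nontrivial (s30_tm_L p 𝒪 T a) := by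
  set x : ℕ → 𝒪 ⊗[ℤ] J := fun n => s30_tm_bc 𝒪 (ι n) w with hx
  have hxL : x ∈ s30_tm_L p 𝒪 T a := by
    refine ⟨?_, fun n => ?_, fun i n => ?_⟩
    · have h0 : ι 0 = 0 := AddMonoidHom.ext fun ψ => by simpa using h1 0 ψ
      simp only [hx, h0]
      show (AddMonoidHom.toIntLinearMap (0 : Λ →+ J)).baseChange 𝒪 w = 0
      rw [show AddMonoidHom.toIntLinearMap (0 : Λ →+ J) = 0 from rfl, LinearMap.baseChange_zero,
        LinearMap.zero_apply]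
    · have h5 : ι n = (p : ℤ) • ι (n + 1) := AddMonoidHom.ext fun ψ => by
        rw [AddMonoidHom.smul_apply, natCast_zsmul, h3]
      simp only [hx]
      conv_rhs => rw [h5]
      rw [s30_tm_bc_zsmul, Int.cast_natCast]
    · simp only [hx]
      rw [← s30_tm_bc_comp]
      have h5 : (T i).comp (ι n) = (ι n).comp (Tc i : Λ →ₗ[ℤ] Λ).toAddMonoidHom :=
        AddMonoidHom.ext fun ψ => (h4 n i ψ).symm
      rw [h5, s30_tm_bc_comp]
      have h6 : s30_tm_bc 𝒪 ((Tc i : Λ →ₗ[ℤ] Λ).toAddMonoidHom) w = (Tc i).baseChange 𝒪 w := rfl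
      rw [h6, hwa, map_smul]
  have hx0 : x ≠ 0 := by
    intro h
    apply hw
    have hdiv : ∀ n : ℕ, ∃ w' : 𝒪 ⊗[ℤ] Λ, w = (p : 𝒪) ^ n • w' := by
      intro n
      have hn : s30_tm_bc 𝒪 (ι n) w = 0 := congrFun h n
      set f : Λ →ₗ[ℤ] Λ := ((p ^ n : ℕ) : ℤ) • LinearMap.id with hf
      have hex : Function.Exact f (ι n).toIntLinearMap := by
        intro ψ
        constructor
        · intro hψ
          obtain ⟨ψ', rfl⟩ := h2 n ψ hψ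
          exact ⟨ψ', by rw [hf, LinearMap.smul_apply, LinearMap.id_apply, natCast_zsmul]⟩
        · rintro ⟨ψ', rfl⟩
          simp only [hf, LinearMap.smul_apply, LinearMap.id_apply, natCast_zsmul,
            AddMonoidHom.coe_toIntLinearMap, map_nsmul]
          exact h1 n ψ'
      obtain ⟨u, hu⟩ := s30_tm_exact f (ι n).toIntLinearMap hex w hn
      refine ⟨u, ?_⟩
      rw [← hu, hf, LinearMap.baseChange_smul, LinearMap.baseChange_id, LinearMap.smul_apply,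
        LinearMap.id_apply, ← Int.cast_smul_eq_zsmul 𝒪, Int.cast_natCast, Nat.cast_pow]
    have hH : IsHausdorff (IsLocalRing.maximalIdeal 𝒪) (𝒪 ⊗[ℤ] Λ) := inferInstance
    apply hH.haus
    intro n
    rw [SModEq.zero]
    obtain ⟨w', rfl⟩ := hdiv n
    exact Submodule.smul_mem_smul (Ideal.pow_mem_pow hp n) Submodule.mem_top
  exact ⟨⟨⟨x, hxL⟩, 0, fun h => hx0 (congrArg Subtype.val h)⟩⟩

end main

section rho

variable {p : ℕ} {𝒪 : Type} [CommRing 𝒪] {J : Type} [AddCommGroup J] {I : Type}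
  {G : Type} [Group G]

/-- The action of `G` on the eigen-part of the Tate module. -/
def s30_tm_rho (p : ℕ) (a : I → 𝒪) (act : G →* AddMonoid.End J) (T : I → J →+ J)
    (hTG : ∀ i g x, T i (act g x) = act g (T i x)) :
    G →* Module.End 𝒪 (s30_tm_L p 𝒪 T a) where
  toFun g := (s30_tm_seq 𝒪 (act g : J →+ J)).restrict
    (fun _ hx => s30_tm_seq_mem (act g : J →+ J) (fun i x => hTG i g x) hx)
  map_one' := by
    refine LinearMap.ext fun v => Subtype.ext (funext fun n => ?_)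
    show s30_tm_bc 𝒪 (act 1 : J →+ J) ((v : ℕ → 𝒪 ⊗[ℤ] J) n) = (v : ℕ → 𝒪 ⊗[ℤ] J) n
    rw [map_one]
    exact s30_tm_bc_id _
  map_mul' g h := by
    refine LinearMap.ext fun v => Subtype.ext (funext fun n => ?_)
    show s30_tm_bc 𝒪 (act (g * h) : J →+ J) ((v : ℕ → 𝒪 ⊗[ℤ] J) n) =
      s30_tm_bc 𝒪 (act g : J →+ J) (s30_tm_bc 𝒪 (act h : J →+ J) ((v : ℕ → 𝒪 ⊗[ℤ] J) n))
    rw [map_mul]
    exact s30_tm_bc_comp _ _ _

theorem s30_tm_rho_apply (a : I → 𝒪) (act : G →* AddMonoid.End J) (T : I → J →+ J)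
    (hTG : ∀ i g x, T i (act g x) = act g (T i x)) (g : G) (v : s30_tm_L p 𝒪 T a) (n : ℕ) :
    ((s30_tm_rho p a act T hTG g v : s30_tm_L p 𝒪 T a) : ℕ → 𝒪 ⊗[ℤ] J) n =
      s30_tm_bc 𝒪 (act g : J →+ J) ((v : ℕ → 𝒪 ⊗[ℤ] J) n) := rfl

end rho

/-- **(TM)**: the Tate module with `𝒪`-coefficients. -/
theorem s30_tm {p : ℕ} [Fact p.Prime] {𝒪 : Type} [CommRing 𝒪] [IsDomain 𝒪]
    [IsDiscreteValuationRing 𝒪] [IsAdicComplete (IsLocalRing.maximalIdeal 𝒪) 𝒪] [CharZero 𝒪]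
    (hp : (p : 𝒪) ∈ IsLocalRing.maximalIdeal 𝒪)
    {J : Type} [AddCommGroup J] (hfin : Finite {x : J // p • x = 0})
    {G : Type} [Group G] (act : G →* AddMonoid.End J)
    {I : Type} (T : I → J →+ J) (hTG : ∀ i g x, T i (act g x) = act g (T i x))
    {Λ : Type} [AddCommGroup Λ] [Module.Free ℤ Λ] [Module.Finite ℤ Λ] (Tc : I → Module.End ℤ Λ)
    (ι : ℕ → Λ →+ J) (h1 : ∀ n ψ, p ^ n • ι n ψ = 0)
    (h2 : ∀ n ψ, ι n ψ = 0 → ∃ ψ', ψ = p ^ n • ψ')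
    (h3 : ∀ n ψ, p • ι (n + 1) ψ = ι n ψ) (h4 : ∀ n i ψ, ι n (Tc i ψ) = T i (ι n ψ))
    (a : I → 𝒪) (w : 𝒪 ⊗[ℤ] Λ) (hw : w ≠ 0)
    (hwa : ∀ i, (Tc i).baseChange 𝒪 w = a i • w) :
    ∃ (L : Type) (_ : AddCommGroup L) (_ : Module 𝒪 L) (_ : Module.Free 𝒪 L)
      (_ : Module.Finite 𝒪 L) (_ : Nontrivial L) (ρ : G →* Module.End 𝒪 L),
      (∀ (g : G) (n : ℕ), (∀ x : J, p ^ n • x = 0 → act g x = x) →
        ∀ v : L, ∃ v' : L, ρ g v - v = (p : 𝒪) ^ n • v') ∧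
      (∀ g : G, (∀ x : J, (∃ n, p ^ n • x = 0) → act g x = x) → ρ g = 1) ∧
      (∀ (g : G) (i : I) (d : ℤ),
        (∀ x : J, (∃ n, p ^ n • x = 0) → act g (act g x) - T i (act g x) + d • x = 0) →
          ρ g * ρ g - a i • ρ g + (d : 𝒪) • (1 : Module.End 𝒪 L) = 0) := by
  have hfinL : Module.Finite 𝒪 (s30_tm_L p 𝒪 T a) := s30_tm_L_finite T a hp hfin
  have htf : Module.IsTorsionFree 𝒪 (s30_tm_L p 𝒪 T a) := s30_tm_L_torsionFree T a hp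
  have hfree : Module.Free 𝒪 (s30_tm_L p 𝒪 T a) := Module.free_of_finite_type_torsion_free'
  have hnt : Nontrivial (s30_tm_L p 𝒪 T a) :=
    s30_tm_L_nontrivial T a hp Tc ι h1 h2 h3 h4 w hw hwa
  -- the vanishing of components
  have hkill : ∀ (f : J →+ J) (n : ℕ), (∀ x : J, p ^ n • x = 0 → f x = 0) →
      ∀ v : s30_tm_L p 𝒪 T a, s30_tm_bc 𝒪 f ((v : ℕ → 𝒪 ⊗[ℤ] J) n) = 0 := by
    intro f n hf v
    refine s30_tm_bc_kill (p ^ n) f hf _ ?_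
    rw [Nat.cast_pow]
    exact s30_tm_L_tors v.2 n
  -- the action as additive maps
  let A : G → (J →+ J) := fun g => act g
  have hρ : ∀ (g : G) (v : s30_tm_L p 𝒪 T a) (n : ℕ),
      ((s30_tm_rho p a act T hTG g v : s30_tm_L p 𝒪 T a) : ℕ → 𝒪 ⊗[ℤ] J) n =
        s30_tm_bc 𝒪 (A g) ((v : ℕ → 𝒪 ⊗[ℤ] J) n) := fun _ _ _ => rfl
  refine ⟨s30_tm_L p 𝒪 T a, inferInstance, inferInstance, hfree, hfinL, hnt,
    s30_tm_rho p a act T hTG, ?_, ?_, ?_⟩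
  · intro g n hg v
    have h0 : ((s30_tm_rho p a act T hTG g v - v : s30_tm_L p 𝒪 T a) : ℕ → 𝒪 ⊗[ℤ] J) n = 0 := by
      have h5 := hkill (A g - AddMonoidHom.id J) n
        (fun x hx => by
          rw [AddMonoidHom.sub_apply, AddMonoidHom.id_apply]
          exact sub_eq_zero.mpr (hg x hx)) v
      rw [s30_tm_bc_sub, s30_tm_bc_id] at h5
      show ((s30_tm_rho p a act T hTG g v : s30_tm_L p 𝒪 T a) : ℕ → 𝒪 ⊗[ℤ] J) n -
        (v : ℕ → 𝒪 ⊗[ℤ] J) n = 0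
      rw [hρ]
      exact h5
    obtain ⟨y, hy, hxy⟩ := s30_tm_L_shift (s30_tm_rho p a act T hTG g v - v).2 n h0
    exact ⟨⟨y, hy⟩, Subtype.ext hxy⟩
  · intro g hg
    refine LinearMap.ext fun v => Subtype.ext (funext fun n => ?_)
    have h5 := hkill (A g - AddMonoidHom.id J) n
      (fun x hx => by
        rw [AddMonoidHom.sub_apply, AddMonoidHom.id_apply]
        exact sub_eq_zero.mpr (hg x ⟨n, hx⟩)) v
    rw [s30_tm_bc_sub, s30_tm_bc_id, sub_eq_zero] at h5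
    rw [hρ]
    exact h5
  · intro g i d hg
    refine LinearMap.ext fun v => Subtype.ext (funext fun n => ?_)
    have h5 := hkill ((A g).comp (A g) - (T i).comp (A g) + d • AddMonoidHom.id J) n
      (fun x hx => by
        simp only [AddMonoidHom.add_apply, AddMonoidHom.sub_apply, AddMonoidHom.comp_apply,
          AddMonoidHom.smul_apply, AddMonoidHom.id_apply]
        exact hg x ⟨n, hx⟩) v
    rw [s30_tm_bc_add, s30_tm_bc_sub, s30_tm_bc_comp, s30_tm_bc_comp, s30_tm_bc_zsmul,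
      s30_tm_bc_id] at h5
    have h6 : s30_tm_bc 𝒪 (T i) (s30_tm_bc 𝒪 (A g) ((v : ℕ → 𝒪 ⊗[ℤ] J) n)) =
        a i • s30_tm_bc 𝒪 (A g) ((v : ℕ → 𝒪 ⊗[ℤ] J) n) :=
      (s30_tm_rho p a act T hTG g v).2.2.2 i n
    rw [h6] at h5
    show ((s30_tm_rho p a act T hTG g (s30_tm_rho p a act T hTG g v) : s30_tm_L p 𝒪 T a) :
        ℕ → 𝒪 ⊗[ℤ] J) n -
      a i • ((s30_tm_rho p a act T hTG g v : s30_tm_L p 𝒪 T a) : ℕ → 𝒪 ⊗[ℤ] J) n +
      (d : 𝒪) • (v : ℕ → 𝒪 ⊗[ℤ] J) n = 0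
    rw [hρ, hρ]
    exact h5

end Fermat.Agent.S30
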