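import Mathlib

/-!
# S30 (TM), part 1: general lemmas

* `s30_tm_finite_of_complete` : a separated module over a `π`-adically complete ring which is
  finitely generated modulo `π` is finitely generated (successive approximation);
* `s30_tm_exact` : flat base change preserves exactness (in `baseChange` form);
* divisibility facts in a discrete valuation ring.
-/

set_option autoImplicit false

open TensorProduct

noncomputable section

namespace Fermat.Agent.S30

/-- A module `X` over a `π`-adically (pre)complete ring `R`, separated for the `π`-adic topology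
and admitting a linear map `φ` with finitely generated range and kernel inside `π X`, is finitely
generated. -/
theorem s30_tm_finite_of_complete {R : Type*} [CommRing R] (π : R)
    [IsPrecomplete (Ideal.span {π}) R] {X Y : Type*} [AddCommGroup X] [Module R X]
    [AddCommGroup Y] [Module R Y] (φ : X →ₗ[R] Y) (hφ : (LinearMap.range φ).FG)
    (hker : ∀ x, φ x = 0 → ∃ y, x = π • y)
    (hsep : ∀ x : X, (∀ n : ℕ, ∃ y, x = π ^ n • y) → x = 0) : Module.Finite R X := by
  classical
  obtain ⟨r, s, hs⟩ := Submodule.fg_iff_exists_fin_generating_family.mp hφ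
  have hs' : ∀ i, ∃ m : X, φ m = s i := fun i => by
    have : s i ∈ LinearMap.range φ := hs ▸ Submodule.subset_span ⟨i, rfl⟩
    exact this
  choose m hm using hs'
  -- generation modulo `π`
  have hgen : ∀ x : X, ∃ (c : Fin r → R) (y : X), x = ∑ i, c i • m i + π • y := by
    intro x
    have hx : φ x ∈ Submodule.span R (Set.range s) := hs ▸ LinearMap.mem_range_self φ x
    obtain ⟨c, hc⟩ := (Submodule.mem_span_range_iff_exists_fun R).mp hx
    obtain ⟨y, hy⟩ := hker (x - ∑ i, c i • m i) (by
      rw [map_sub, map_sum]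
      simp only [map_smul, hm]
      rw [hc, sub_self])
    exact ⟨c, y, by rw [← hy]; abel⟩
  choose C Y hCY using hgen
  refine ⟨⟨Finset.univ.image m, ?_⟩⟩
  rw [eq_top_iff]
  intro x _
  -- successive approximation
  set xs : ℕ → X := fun k => Y^[k] x with hxs
  set cs : ℕ → Fin r → R := fun k => C (xs k) with hcs
  have hstep : ∀ k, xs k = ∑ i, cs k i • m i + π • xs (k + 1) := fun k => by
    simp only [hxs, hcs, Function.iterate_succ_apply']
    exact hCY _
  set S : ℕ → Fin r → R := fun n i => ∑ k ∈ Finset.range n, π ^ k * cs k i with hS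
  have hx : ∀ n, x = ∑ i, S n i • m i + π ^ n • xs n := by
    intro n
    induction n with
    | zero => simp [hS, hxs]
    | succ n ih =>
      have h1 : ∀ i, S (n + 1) i = S n i + π ^ n * cs n i := fun i => by
        simp only [hS, Finset.sum_range_succ]
      calc x = ∑ i, S n i • m i + π ^ n • xs n := ih
        _ = ∑ i, S n i • m i + π ^ n • (∑ i, cs n i • m i + π • xs (n + 1)) := by rw [← hstep n]
        _ = ∑ i, S (n + 1) i • m i + π ^ (n + 1) • xs (n + 1) := by
          simp only [h1, add_smul, Finset.sum_add_distrib, smul_add, Finset.smul_sum, mul_smul,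
            pow_succ]
          abel
  have hmem : ∀ (a : ℕ) (z : R), z ∈ (Ideal.span {π} ^ a • ⊤ : Submodule R R) ↔ π ^ a ∣ z := by
    intro a z
    rw [smul_eq_mul, Ideal.mul_top, Ideal.span_singleton_pow, Ideal.mem_span_singleton]
  have hcauchy : ∀ i, ∀ {a b : ℕ}, a ≤ b →
      S a i ≡ S b i [SMOD (Ideal.span {π} ^ a • ⊤ : Submodule R R)] := by
    intro i a b hab
    rw [SModEq.sub_mem, hmem]
    induction b, hab using Nat.le_induction with
    | base => simp
    | succ b hab ih =>
      have h1 : S (b + 1) i = S b i + π ^ b * cs b i := by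
        simp only [hS, Finset.sum_range_succ]
      have h2 : S a i - S (b + 1) i = (S a i - S b i) - π ^ b * cs b i := by rw [h1]; ring
      rw [h2]
      exact dvd_sub ih (Dvd.dvd.mul_right (pow_dvd_pow π hab) _)
  have hlim : ∀ i, ∃ c : R, ∀ n, S n i ≡ c [SMOD (Ideal.span {π} ^ n • ⊤ : Submodule R R)] :=
    fun i => IsPrecomplete.prec' (I := Ideal.span {π}) (fun n => S n i) (hcauchy i)
  choose c hc using hlim
  have hdiv : ∀ i n, ∃ d, S n i - c i = π ^ n * d := by
    intro i n
    have := hc i n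
    rw [SModEq.sub_mem, hmem] at this
    exact this
  have hxc : x = ∑ i, c i • m i := by
    rw [← sub_eq_zero]
    apply hsep
    intro n
    choose d hd using fun i => hdiv i n
    refine ⟨xs n + ∑ i, d i • m i, ?_⟩
    have h1 : ∀ i, S n i • m i = c i • m i + π ^ n • (d i • m i) := fun i => by
      rw [← mul_smul, ← hd i, sub_smul]; abel
    conv_lhs => rw [hx n]
    simp only [h1, Finset.sum_add_distrib, smul_add, Finset.smul_sum]
    abel
  rw [hxc]
  exact Submodule.sum_mem _ fun i _ =>
    Submodule.smul_mem _ _ (Submodule.subset_span (by simp))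

/-- Flat base change preserves exactness (`baseChange` form). -/
theorem s30_tm_exact {𝒪 : Type} [CommRing 𝒪] [Module.Flat ℤ 𝒪] {A B C : Type} [AddCommGroup A]
    [AddCommGroup B] [AddCommGroup C] (f : A →ₗ[ℤ] B) (g : B →ₗ[ℤ] C)
    (hfg : Function.Exact f g) (v : 𝒪 ⊗[ℤ] B) (hv : g.baseChange 𝒪 v = 0) :
    ∃ u : 𝒪 ⊗[ℤ] A, f.baseChange 𝒪 u = v := by
  have h := Module.Flat.lTensor_exact 𝒪 hfg
  have hv' : g.lTensor 𝒪 v = 0 := by
    rw [← hv]
    exact (congrFun (LinearMap.baseChange_eq_ltensor (A := 𝒪) g) v).symm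
  obtain ⟨u, hu⟩ := (h v).mp hv'
  exact ⟨u, (congrFun (LinearMap.baseChange_eq_ltensor (A := 𝒪) f) u).trans hu⟩

section DVR

variable {𝒪 : Type} [CommRing 𝒪] [IsDomain 𝒪] [IsDiscreteValuationRing 𝒪]

/-- In a DVR, a uniformizer divides every element of the maximal ideal. -/
theorem s30_tm_unif_dvd {π : 𝒪} (hπ : Irreducible π) {x : 𝒪}
    (hx : x ∈ IsLocalRing.maximalIdeal 𝒪) : π ∣ x := by
  rw [hπ.maximalIdeal_eq, Ideal.mem_span_singleton] at hx
  exact hx

/-- In a DVR, every nonzero element divides a power of the uniformizer. -/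
theorem s30_tm_dvd_unif_pow {π : 𝒪} (hπ : Irreducible π) {x : 𝒪} (hx : x ≠ 0) :
    ∃ e : ℕ, x ∣ π ^ e := by
  obtain ⟨n, u, rfl⟩ := IsDiscreteValuationRing.eq_unit_mul_pow_irreducible hx hπ
  exact ⟨n, ⟨((u⁻¹ : 𝒪ˣ) : 𝒪), by rw [mul_comm (u : 𝒪), mul_assoc, Units.mul_inv, mul_one]⟩⟩

/-- In a DVR, every nonzero element divides a power of any nonzero element of the maximal
ideal. -/
theorem s30_tm_dvd_pow {q : 𝒪} (hq : q ∈ IsLocalRing.maximalIdeal 𝒪) {x : 𝒪} (hx : x ≠ 0) :
    ∃ j : ℕ, x ∣ q ^ j := by
  obtain ⟨π, hπ⟩ := IsDiscreteValuationRing.exists_irreducible 𝒪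
  obtain ⟨e, he⟩ := s30_tm_dvd_unif_pow hπ hx
  exact ⟨e, he.trans (pow_dvd_pow_of_dvd (s30_tm_unif_dvd hπ hq) e)⟩

end DVR

end Fermat.Agent.S30
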