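import Mathlib

/-!
# S30, leaf (TM), flatness block

`𝒪` is a domain of characteristic zero, hence flat over `ℤ`.  For an abelian group `J`:

* `s30_tf_mem_range` : the kernel of `p ^ k` on `𝒪 ⊗ J` is the image of `𝒪 ⊗ J[p ^ k]`;
* `s30_tf_ker` : ... hence generated by the pure tensors `c ⊗ x`, `x ∈ J[p ^ k]`;
* `s30_tf_kill` : an additive map killing `J[p ^ k]` kills, after base change, the kernel of
  `p ^ k` on `𝒪 ⊗ J`;
* `s30_tf_fg` : if `J[p ^ k]` is finite, the kernel of `p ^ k` on `𝒪 ⊗ J` is finitely generated;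
* `s30_tf_lam` : if `ker ι ⊆ p ^ n Λ` then `ker (𝒪 ⊗ ι) ⊆ p ^ n (𝒪 ⊗ Λ)`.
-/

set_option autoImplicit false

open TensorProduct

namespace Fermat.Agent.S30

section

variable (p : ℕ) {𝒪 : Type*} [CommRing 𝒪] [IsDomain 𝒪] [CharZero 𝒪]
variable {J : Type*} [AddCommGroup J]

/-- `J[p ^ k]` as a `ℤ`-submodule. -/
def s30_tf_K (k : ℕ) (J : Type*) [AddCommGroup J] : Submodule ℤ J :=
  LinearMap.ker (((p ^ k : ℕ) : ℤ) • (LinearMap.id : J →ₗ[ℤ] J))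

theorem s30_tf_mem_K (k : ℕ) (x : J) : x ∈ s30_tf_K p k J ↔ p ^ k • x = 0 := by
  rw [s30_tf_K, LinearMap.mem_ker, LinearMap.smul_apply, LinearMap.id_apply, natCast_zsmul]

omit [IsDomain 𝒪] [CharZero 𝒪] in
theorem s30_tf_natCast_smul (n : ℕ) (y : 𝒪 ⊗[ℤ] J) : (n : 𝒪) • y = ((n : ℕ) : ℤ) • y := by
  rw [← Int.cast_smul_eq_zsmul 𝒪 ((n : ℕ) : ℤ) y, Int.cast_natCast]

/-- The kernel of `p ^ k` on `𝒪 ⊗ J` is the image of `𝒪 ⊗ J[p ^ k]`. -/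
theorem s30_tf_mem_range (k : ℕ) (y : 𝒪 ⊗[ℤ] J) (hy : (p : 𝒪) ^ k • y = 0) :
    y ∈ Set.range ((s30_tf_K p k J).subtype.lTensor 𝒪) := by
  have hex := Module.Flat.lTensor_exact 𝒪
    (LinearMap.exact_subtype_ker_map (((p ^ k : ℕ) : ℤ) • (LinearMap.id : J →ₗ[ℤ] J)))
  refine (hex y).1 ?_
  rw [LinearMap.lTensor_smul, LinearMap.lTensor_id, LinearMap.smul_apply, LinearMap.id_apply,
    ← s30_tf_natCast_smul, Nat.cast_pow]
  exact hy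

/-- The kernel of `p ^ k` on `𝒪 ⊗ J` is generated by the pure tensors `c ⊗ x`, `p ^ k • x = 0`. -/
theorem s30_tf_ker (k : ℕ) (y : 𝒪 ⊗[ℤ] J) (hy : (p : 𝒪) ^ k • y = 0) :
    y ∈ Submodule.span 𝒪 {z : 𝒪 ⊗[ℤ] J | ∃ (c : 𝒪) (x : J), p ^ k • x = 0 ∧ z = c ⊗ₜ[ℤ] x} := by
  obtain ⟨z, rfl⟩ := s30_tf_mem_range p k y hy
  clear hy
  induction z using TensorProduct.induction_on with
  | zero => rw [map_zero]; exact zero_mem _
  | tmul c x =>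
    rw [LinearMap.lTensor_tmul]
    exact Submodule.subset_span ⟨c, x, (s30_tf_mem_K p k (x : J)).1 x.2, rfl⟩
  | add a b ha hb => rw [map_add]; exact add_mem ha hb

/-- An additive map killing `J[p ^ k]` kills, after base change, the kernel of `p ^ k`. -/
theorem s30_tf_kill {J' : Type*} [AddCommGroup J'] (k : ℕ) (f : J →+ J')
    (hf : ∀ x : J, p ^ k • x = 0 → f x = 0) (y : 𝒪 ⊗[ℤ] J) (hy : (p : 𝒪) ^ k • y = 0) :
    (f.toIntLinearMap.baseChange 𝒪) y = 0 := by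
  obtain ⟨z, rfl⟩ := s30_tf_mem_range p k y hy
  have h0 : f.toIntLinearMap ∘ₗ (s30_tf_K p k J).subtype = 0 := by
    ext x
    exact hf x ((s30_tf_mem_K p k (x : J)).1 x.2)
  show (f.toIntLinearMap.lTensor 𝒪) (((s30_tf_K p k J).subtype.lTensor 𝒪) z) = 0
  rw [← LinearMap.lTensor_comp_apply, h0, LinearMap.lTensor_zero, LinearMap.zero_apply]

/-- If `J[p ^ k]` is finite, the kernel of `p ^ k` on `𝒪 ⊗ J` is the span of finitely many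
elements. -/
theorem s30_tf_fg_set (k : ℕ) [Finite {x : J // p ^ k • x = 0}] (y : 𝒪 ⊗[ℤ] J) :
    (p : 𝒪) ^ k • y = 0 ↔
      y ∈ Submodule.span 𝒪
        (Set.range (fun x : {x : J // p ^ k • x = 0} => (1 : 𝒪) ⊗ₜ[ℤ] (x : J))) := by
  constructor
  · intro hy
    refine Submodule.span_le.2 ?_ (s30_tf_ker p k y hy)
    rintro z ⟨c, x, hx, rfl⟩
    have h : c ⊗ₜ[ℤ] x = c • ((1 : 𝒪) ⊗ₜ[ℤ] x) := by
      rw [TensorProduct.smul_tmul', smul_eq_mul, mul_one]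
    rw [h]
    exact Submodule.smul_mem _ _ (Submodule.subset_span ⟨⟨x, hx⟩, rfl⟩)
  · intro hy
    induction hy using Submodule.span_induction with
    | mem z hz =>
      obtain ⟨x, rfl⟩ := hz
      rw [← Nat.cast_pow, s30_tf_natCast_smul, ← TensorProduct.tmul_smul, natCast_zsmul, x.2,
        TensorProduct.tmul_zero]
    | zero => rw [smul_zero]
    | add a b _ _ ha hb => rw [smul_add, ha, hb, add_zero]
    | smul c a _ ha => rw [smul_comm, ha, smul_zero]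

/-- If `J[p ^ k]` is finite, the kernel of `p ^ k` on `𝒪 ⊗ J` is a finitely generated
`𝒪`-module. -/
theorem s30_tf_fg (k : ℕ) [Finite {x : J // p ^ k • x = 0}] :
    (LinearMap.ker ((p : 𝒪) ^ k • (LinearMap.id : 𝒪 ⊗[ℤ] J →ₗ[𝒪] 𝒪 ⊗[ℤ] J))).FG := by
  have h : LinearMap.ker ((p : 𝒪) ^ k • (LinearMap.id : 𝒪 ⊗[ℤ] J →ₗ[𝒪] 𝒪 ⊗[ℤ] J))
      = Submodule.span 𝒪
        (Set.range (fun x : {x : J // p ^ k • x = 0} => (1 : 𝒪) ⊗ₜ[ℤ] (x : J))) := by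
    ext y
    rw [LinearMap.mem_ker, LinearMap.smul_apply, LinearMap.id_apply]
    exact s30_tf_fg_set p k y
  rw [h]
  exact Submodule.fg_span (Set.finite_range _)

/-- If `ker ι ⊆ p ^ n Λ` then `ker (𝒪 ⊗ ι) ⊆ p ^ n (𝒪 ⊗ Λ)`. -/
theorem s30_tf_lam {Λ : Type*} [AddCommGroup Λ] (n : ℕ) (ι : Λ →+ J)
    (h2 : ∀ ψ : Λ, ι ψ = 0 → ∃ ψ' : Λ, ψ = p ^ n • ψ') (w : 𝒪 ⊗[ℤ] Λ)
    (hw : (ι.toIntLinearMap.baseChange 𝒪) w = 0) : ∃ w' : 𝒪 ⊗[ℤ] Λ, w = (p : 𝒪) ^ n • w' := by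
  have hex := Module.Flat.lTensor_exact 𝒪 (LinearMap.exact_subtype_ker_map ι.toIntLinearMap)
  obtain ⟨z, rfl⟩ := (hex w).1 hw
  clear hw
  induction z using TensorProduct.induction_on with
  | zero => exact ⟨0, by rw [map_zero, smul_zero]⟩
  | tmul c ψ =>
    obtain ⟨ψ', hψ'⟩ := h2 (ψ : Λ) (LinearMap.mem_ker.1 ψ.2)
    refine ⟨c ⊗ₜ[ℤ] ψ', ?_⟩
    rw [LinearMap.lTensor_tmul, Submodule.subtype_apply, hψ', ← Nat.cast_pow,
      s30_tf_natCast_smul, ← TensorProduct.tmul_smul, natCast_zsmul]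
  | add a b ha hb =>
    obtain ⟨a', ha'⟩ := ha
    obtain ⟨b', hb'⟩ := hb
    exact ⟨a' + b', by rw [map_add, ha', hb', smul_add]⟩

end

end Fermat.Agent.S30
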