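import Fermat.Agent.S30.TateBase

/-!
# S30 (TM), part 2: the Tate module of `𝒪 ⊗ J` and its eigen-part

`W := 𝒪 ⊗[ℤ] J`.  The eigen-part of the Tate module is the `𝒪`-submodule `s30_tm_L` of `ℕ → W`
of the sequences `x` with `x 0 = 0`, `p • x (n+1) = x n` and `(𝒪 ⊗ T i) (x n) = a i • x n`.
-/

set_option autoImplicit false

open TensorProduct

noncomputable section

namespace Fermat.Agent.S30

section bc

variable (𝒪 : Type) [CommRing 𝒪] {J J' J'' : Type} [AddCommGroup J] [AddCommGroup J']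
  [AddCommGroup J'']

/-- `𝒪 ⊗ f` for an additive map `f`. -/
def s30_tm_bc (f : J →+ J') : 𝒪 ⊗[ℤ] J →ₗ[𝒪] 𝒪 ⊗[ℤ] J' := f.toIntLinearMap.baseChange 𝒪

variable {𝒪}

@[simp] theorem s30_tm_bc_tmul (f : J →+ J') (c : 𝒪) (x : J) :
    s30_tm_bc 𝒪 f (c ⊗ₜ[ℤ] x) = c ⊗ₜ[ℤ] f x := by
  simp [s30_tm_bc]

theorem s30_tm_bc_comp (f : J' →+ J'') (g : J →+ J') (v : 𝒪 ⊗[ℤ] J) :
    s30_tm_bc 𝒪 (f.comp g) v = s30_tm_bc 𝒪 f (s30_tm_bc 𝒪 g v) := by
  induction v using TensorProduct.induction_on with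
  | zero => simp
  | tmul c x => simp
  | add v w hv hw => simp only [map_add, hv, hw]

theorem s30_tm_bc_id (v : 𝒪 ⊗[ℤ] J) : s30_tm_bc 𝒪 (AddMonoidHom.id J) v = v := by
  induction v using TensorProduct.induction_on with
  | zero => simp
  | tmul c x => simp
  | add v w hv hw => simp only [map_add, hv, hw]

theorem s30_tm_bc_add (f g : J →+ J') (v : 𝒪 ⊗[ℤ] J) :
    s30_tm_bc 𝒪 (f + g) v = s30_tm_bc 𝒪 f v + s30_tm_bc 𝒪 g v := by
  induction v using TensorProduct.induction_on with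
  | zero => simp
  | tmul c x => simp [TensorProduct.tmul_add]
  | add v w hv hw => simp only [map_add, hv, hw]; abel

theorem s30_tm_bc_sub (f g : J →+ J') (v : 𝒪 ⊗[ℤ] J) :
    s30_tm_bc 𝒪 (f - g) v = s30_tm_bc 𝒪 f v - s30_tm_bc 𝒪 g v := by
  induction v using TensorProduct.induction_on with
  | zero => simp
  | tmul c x => simp [TensorProduct.tmul_sub]
  | add v w hv hw => simp only [map_add, hv, hw]; abel

theorem s30_tm_bc_zsmul (d : ℤ) (f : J →+ J') (v : 𝒪 ⊗[ℤ] J) :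
    s30_tm_bc 𝒪 (d • f) v = (d : 𝒪) • s30_tm_bc 𝒪 f v := by
  induction v using TensorProduct.induction_on with
  | zero => simp
  | tmul c x =>
    simp only [s30_tm_bc_tmul, AddMonoidHom.smul_apply, TensorProduct.tmul_smul,
      TensorProduct.smul_tmul', Int.cast_smul_eq_zsmul]
  | add v w hv hw => simp only [map_add, hv, hw, smul_add]

/-- **Key lemma (flatness)**: an additive map killing the `m`-torsion of `J` has base change
killing the `m`-torsion of `𝒪 ⊗ J`. -/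
theorem s30_tm_bc_kill [Module.Flat ℤ 𝒪] (m : ℕ) (f : J →+ J')
    (hf : ∀ x : J, m • x = 0 → f x = 0) (v : 𝒪 ⊗[ℤ] J) (hv : (m : 𝒪) • v = 0) :
    s30_tm_bc 𝒪 f v = 0 := by
  set g : J →ₗ[ℤ] J := (m : ℤ) • LinearMap.id with hg
  have hgv : g.baseChange 𝒪 v = 0 := by
    rw [hg, LinearMap.baseChange_smul, LinearMap.baseChange_id, LinearMap.smul_apply,
      LinearMap.id_apply, ← Int.cast_smul_eq_zsmul 𝒪, Int.cast_natCast]
    exact hv
  obtain ⟨u, rfl⟩ := s30_tm_exact (LinearMap.ker g).subtype g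
    (LinearMap.exact_subtype_ker_map g) v hgv
  have h0 : f.toIntLinearMap ∘ₗ (LinearMap.ker g).subtype = 0 := by
    ext x
    have hx : g (x : J) = 0 := x.2
    simp only [hg, LinearMap.smul_apply, LinearMap.id_apply, natCast_zsmul] at hx
    simpa using hf _ hx
  show (f.toIntLinearMap.baseChange 𝒪) (((LinearMap.ker g).subtype.baseChange 𝒪) u) = 0
  rw [← LinearMap.comp_apply, ← LinearMap.baseChange_comp, h0, LinearMap.baseChange_zero,
    LinearMap.zero_apply]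

/-- The `m`-torsion of `𝒪 ⊗ J` is contained in a finitely generated submodule when the
`m`-torsion of `J` is finite. -/
theorem s30_tm_tors_fg [Module.Flat ℤ 𝒪] (m : ℕ) (hfin : Finite {x : J // m • x = 0}) :
    ∃ P : Submodule 𝒪 (𝒪 ⊗[ℤ] J), P.FG ∧ ∀ v : 𝒪 ⊗[ℤ] J, (m : 𝒪) • v = 0 → v ∈ P := by
  set g : J →ₗ[ℤ] J := (m : ℤ) • LinearMap.id with hg
  have : Finite ↥(LinearMap.ker g) := by
    refine Finite.of_injective
      (fun x : ↥(LinearMap.ker g) => (⟨(x : J), by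
        have hx : g (x : J) = 0 := x.2
        simpa [hg] using hx⟩ : {x : J // m • x = 0})) ?_
    intro x y hxy
    have h1 : (x : J) = (y : J) := by simpa using hxy
    exact Subtype.ext h1
  have : Module.Finite ℤ ↥(LinearMap.ker g) := Module.Finite.of_finite
  refine ⟨LinearMap.range ((LinearMap.ker g).subtype.baseChange 𝒪), ?_, ?_⟩
  · rw [LinearMap.range_eq_map]
    exact Submodule.FG.map _ Module.Finite.fg_top
  · intro v hv
    have hgv : g.baseChange 𝒪 v = 0 := by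
      rw [hg, LinearMap.baseChange_smul, LinearMap.baseChange_id, LinearMap.smul_apply,
        LinearMap.id_apply, ← Int.cast_smul_eq_zsmul 𝒪, Int.cast_natCast]
      exact hv
    obtain ⟨u, rfl⟩ := s30_tm_exact (LinearMap.ker g).subtype g
      (LinearMap.exact_subtype_ker_map g) v hgv
    exact LinearMap.mem_range_self _ u

end bc

section L

variable (p : ℕ) (𝒪 : Type) [CommRing 𝒪] {J : Type} [AddCommGroup J] {I : Type}
  (T : I → J →+ J) (a : I → 𝒪)

/-- The eigen-part of the Tate module of `𝒪 ⊗ J`. -/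
def s30_tm_L : Submodule 𝒪 (ℕ → 𝒪 ⊗[ℤ] J) where
  carrier := {x | x 0 = 0 ∧ (∀ n, (p : 𝒪) • x (n + 1) = x n) ∧
    ∀ i n, s30_tm_bc 𝒪 (T i) (x n) = a i • x n}
  add_mem' := by
    rintro x y ⟨hx0, hx1, hx2⟩ ⟨hy0, hy1, hy2⟩
    refine ⟨by simp [hx0, hy0], fun n => by simp [hx1, hy1], fun i n => ?_⟩
    simp only [Pi.add_apply, map_add, hx2, hy2, smul_add]
  zero_mem' := ⟨rfl, fun n => by simp, fun i n => by simp⟩
  smul_mem' := by
    rintro c x ⟨hx0, hx1, hx2⟩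
    refine ⟨by simp [hx0], fun n => ?_, fun i n => ?_⟩
    · simp only [Pi.smul_apply]
      rw [smul_comm, hx1]
    · simp only [Pi.smul_apply, map_smul, hx2]
      rw [smul_comm]

variable {p 𝒪 T a}

theorem s30_tm_mem_L {x : ℕ → 𝒪 ⊗[ℤ] J} :
    x ∈ s30_tm_L p 𝒪 T a ↔ x 0 = 0 ∧ (∀ n, (p : 𝒪) • x (n + 1) = x n) ∧
      ∀ i n, s30_tm_bc 𝒪 (T i) (x n) = a i • x n := Iff.rfl

theorem s30_tm_L_pow {x : ℕ → 𝒪 ⊗[ℤ] J} (hx : x ∈ s30_tm_L p 𝒪 T a) (n k : ℕ) :
    (p : 𝒪) ^ k • x (n + k) = x n := by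
  induction k with
  | zero => simp
  | succ k ih =>
    rw [pow_succ, mul_smul, ← add_assoc, hx.2.1, ih]

theorem s30_tm_L_tors {x : ℕ → 𝒪 ⊗[ℤ] J} (hx : x ∈ s30_tm_L p 𝒪 T a) (n : ℕ) :
    (p : 𝒪) ^ n • x n = 0 := by
  have := s30_tm_L_pow hx 0 n
  rw [zero_add] at this
  rw [this, hx.1]

/-- The shift trick: an element with vanishing `n`-th component is divisible by `p ^ n`. -/
theorem s30_tm_L_shift {x : ℕ → 𝒪 ⊗[ℤ] J} (hx : x ∈ s30_tm_L p 𝒪 T a) (n : ℕ) (h0 : x n = 0) :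
    ∃ y ∈ s30_tm_L p 𝒪 T a, x = (p : 𝒪) ^ n • y := by
  refine ⟨fun k => x (k + n), ⟨by simpa using h0, fun k => ?_, fun i k => hx.2.2 i (k + n)⟩, ?_⟩
  · have := hx.2.1 (k + n)
    show (p : 𝒪) • x (k + 1 + n) = x (k + n)
    rw [show k + 1 + n = k + n + 1 by ring]
    exact this
  · funext k
    simp only [Pi.smul_apply]
    exact (s30_tm_L_pow hx k n).symm

end L

end Fermat.Agent.S30
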